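import Fermat.Agent.GAL.Hecke.KummerNorm

/-!
# MR/Eis (S44, block EIS): the abstract core

`Fb / k` a function field, `S` a set of places ("non cuspidal places"), `T : Fb →* Fb` a multiplicative operator which
preserves the functions all of whose orders on `S` are divisible by `p`.

* `dvd_ord_norm`     : local form of `GAL.Hecke.norm_mem_kummerUnits`;
* `dvd_ord_norm_map` : `T = Norm ∘ β` is such an operator;
* `core`             : if `T ψ = c ψ^(l+1)`, `T u = u^a h^p`, `p ∣ e ord_P u - κ ord_P ψ` on `S`, `p ∤ e (a - l - 1)`, then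
  `p ∣ ord_P u` on `S`.
-/

set_option autoImplicit false

namespace Fermat.Agent.MR.Eis

open AlgebraicCurve Fermat.Agent.GAL Fermat.Agent.GAL.Hecke

section Norm

variable {K F F' : Type*} [Field K] [Field F] [Field F'] [Algebra K F] [Algebra K F']

/-- If `m` divides the orders of `g` at all the places above `P`, it divides the order of the norm of `g`
at `P`. -/
theorem dvd_ord_norm [Algebra F F'] [IsScalarTower K F F'] [FiniteDimensional F F']
    [Algebra.IsSeparable F F'] {m : ℕ} (P : Place K F) {g : F'} (hg0 : g ≠ 0)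
    (hg : ∀ Q : Place K F', Q.restrict F = P → (m : ℤ) ∣ Q.ord g) :
    (m : ℤ) ∣ P.ord (Algebra.norm F g) := by
  obtain ⟨t, ht0, ht⟩ := exists_ord_eq_above (K := K) (F := F) P
    (fun Q : Place K F' => Q.ord g / (m : ℤ))
  have htm0 : t ^ m ≠ 0 := pow_ne_zero _ ht0
  set s : F' := g * (t ^ m)⁻¹ with hs
  have hs0 : s ≠ 0 := mul_ne_zero hg0 (inv_ne_zero htm0)
  have hsord : ∀ Q : Place K F', Q.restrict F = P → Q.ord s = 0 := by
    intro Q hQ
    have h2 := Q.ord_zpow t (m : ℤ)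
    rw [zpow_natCast] at h2
    rw [hs, Q.ord_mul hg0 (inv_ne_zero htm0), Q.ord_inv, h2, ht Q hQ,
      Int.mul_ediv_cancel' (hg Q hQ)]
    ring
  have hg' : g = t ^ m * s := by
    rw [hs, mul_comm g, ← mul_assoc, mul_inv_cancel₀ htm0, one_mul]
  have hnt0 : Algebra.norm F t ≠ 0 := Algebra.norm_ne_zero_iff.mpr ht0
  have hns0 : Algebra.norm F s ≠ 0 := Algebra.norm_ne_zero_iff.mpr hs0
  have h3 := P.ord_zpow (Algebra.norm F t) (m : ℤ)
  rw [zpow_natCast] at h3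
  rw [hg', map_mul, map_pow, P.ord_mul (pow_ne_zero _ hnt0) hns0, h3,
    ord_norm_eq_zero P s hs0 hsord, add_zero]
  exact dvd_mul_right _ _

/-- `Norm ∘ β` preserves the functions whose orders on `S` are divisible by `m`, if the correspondence
`(restrict, restrictAlong β)` preserves `S`. -/
theorem dvd_ord_norm_map [Algebra F F'] [IsScalarTower K F F'] [FiniteDimensional F F']
    [Algebra.IsSeparable F F'] (β : F →ₐ[K] F') (hβ : β.toRingHom.IsIntegral) (S : Set (Place K F))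
    (hS : ∀ Q : Place K F', Q.restrict F ∈ S → Q.restrictAlong β hβ ∈ S)
    {m : ℕ} {y : F} (hy0 : y ≠ 0) (hy : ∀ P ∈ S, (m : ℤ) ∣ P.ord y) :
    ∀ P ∈ S, (m : ℤ) ∣ P.ord (Algebra.norm F (β y)) := by
  intro P hP
  refine dvd_ord_norm P ((map_ne_zero β).mpr hy0) fun Q hQ => ?_
  rw [Q.ord_restrictAlong β hβ]
  exact dvd_mul_of_dvd_right (hy _ (hS Q (hQ ▸ hP))) _

end Norm

section Core

variable {k Fb : Type*} [Field k] [Field Fb] [Algebra k Fb]

theorem ord_units_mul (P : Place k Fb) (x y : Fbˣ) :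
    P.ord ((x * y : Fbˣ) : Fb) = P.ord (x : Fb) + P.ord (y : Fb) := by
  rw [Units.val_mul, P.ord_mul x.ne_zero y.ne_zero]

theorem ord_units_zpow (P : Place k Fb) (x : Fbˣ) (n : ℤ) :
    P.ord ((x ^ n : Fbˣ) : Fb) = n * P.ord (x : Fb) := by
  rw [Units.val_zpow_eq_zpow_val, P.ord_zpow]

/-- **The abstract core of EIS.** -/
theorem core (S : Set (Place k Fb)) (T : Fb →* Fb) (p : ℕ)
    (hT : ∀ y : Fb, y ≠ 0 → (∀ P ∈ S, (p : ℤ) ∣ P.ord y) → ∀ P ∈ S, (p : ℤ) ∣ P.ord (T y))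
    (u ψ h c : Fb) (hu0 : u ≠ 0) (hψ0 : ψ ≠ 0) (hh0 : h ≠ 0) (hc0 : c ≠ 0)
    (hc : ∀ P ∈ S, P.ord c = 0) (e κ a : ℤ) (l : ℕ)
    (hTu : T u = u ^ a * h ^ p) (hTψ : T ψ = c * ψ ^ (l + 1))
    (hm : ∀ P ∈ S, (p : ℤ) ∣ e * P.ord u - κ * P.ord ψ)
    (he : IsCoprime (p : ℤ) e) (ha : IsCoprime (p : ℤ) (a - l - 1)) :
    ∀ P ∈ S, (p : ℤ) ∣ P.ord u := by
  intro P hP
  let U : Fbˣ := Units.mk0 u hu0
  let Ψ : Fbˣ := Units.mk0 ψ hψ0
  let y : Fbˣ := U ^ e * Ψ ^ (-κ)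
  have hy : ∀ Q ∈ S, (p : ℤ) ∣ Q.ord (y : Fb) := by
    intro Q hQ
    rw [ord_units_mul, ord_units_zpow, ord_units_zpow]
    have := hm Q hQ
    have e1 : e * Q.ord ((U : Fbˣ) : Fb) + -κ * Q.ord ((Ψ : Fbˣ) : Fb)
        = e * Q.ord u - κ * Q.ord ψ := by
      show e * Q.ord u + -κ * Q.ord ψ = _
      ring
    rw [e1]
    exact this
  have h1 := hT y y.ne_zero hy P hP
  have hTy : T (y : Fb) = ((Units.map T U ^ e * Units.map T Ψ ^ (-κ) : Fbˣ) : Fb) := by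
    rw [← map_zpow, ← map_zpow, ← map_mul]
    rfl
  have hTU : ((Units.map T U : Fbˣ) : Fb) = u ^ a * h ^ p := hTu
  have hTΨ : ((Units.map T Ψ : Fbˣ) : Fb) = c * ψ ^ (l + 1) := hTψ
  have o1 : P.ord (u ^ a * h ^ p) = a * P.ord u + p * P.ord h := by
    rw [P.ord_mul (zpow_ne_zero _ hu0) (pow_ne_zero _ hh0), P.ord_zpow, ← zpow_natCast h p,
      P.ord_zpow]
  have o2 : P.ord (c * ψ ^ (l + 1)) = ((l : ℤ) + 1) * P.ord ψ := by
    rw [P.ord_mul hc0 (pow_ne_zero _ hψ0), hc P hP, ← zpow_natCast ψ (l + 1), P.ord_zpow]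
    push_cast
    ring
  rw [hTy, ord_units_mul, ord_units_zpow, ord_units_zpow, hTU, hTΨ, o1, o2] at h1
  obtain ⟨t, ht⟩ := hm P hP
  -- `e ord u = κ ord ψ + p t`
  have h2 : (p : ℤ) ∣ (a - l - 1) * (κ * P.ord ψ) := by
    obtain ⟨s, hs⟩ := h1
    refine ⟨s - e * P.ord h - a * t, ?_⟩
    have : e * P.ord u = κ * P.ord ψ + p * t := by linarith
    have e2 : (a - l - 1) * (κ * P.ord ψ)
        = e * (a * P.ord u + p * P.ord h) + -κ * (((l : ℤ) + 1) * P.ord ψ)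
          - p * (e * P.ord h) - a * (e * P.ord u - κ * P.ord ψ) := by ring
    rw [e2, hs, ht]
    ring
  have h3 : (p : ℤ) ∣ κ * P.ord ψ := ha.dvd_of_dvd_mul_left h2
  have h4 : (p : ℤ) ∣ e * P.ord u := by
    have := dvd_add (hm P hP) h3
    rwa [sub_add_cancel] at this
  exact he.dvd_of_dvd_mul_left h4

end Core

end Fermat.Agent.MR.Eis
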