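import Fermat.Agent.S28.B
import Fermat.Agent.S28.A
import Fermat.Agent.S28.CStep

/-!
# MR/Eis (S44, block EIS): `S28.StatementB` with the explicit exponent `m = p + 1`

(The proof of `S28.statementB_aux` with the witness `m = p + 1` made visible.)
-/

set_option autoImplicit false

noncomputable section

namespace Fermat.Agent.MR.Eis

open ModularCurve Polynomial Fermat.Agent.S28

theorem statementB_aux_explicit (hA : StatementA) (p : ℕ) [NeZero p] (hp : p.Prime)
    (L : Type) [Field L] [CharZero L] (Λu : Type) [CommRing Λu] (f : Λu →+* L) (ζu : Λuˣ)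
    (hf : Function.Injective f) (hint : ∀ x, IsIntegral ℤ (f x))
    (hprim : IsPrimitiveRoot (Units.map (f : Λu →* L) ζu) p) :
    ∃ (Φ U G : ℤ[X][X]) (c : ℤ), Φ.Monic ∧ U.Monic ∧ U.coeff 0 = C c ∧
      c * c = (p : ℤ) ^ 24 ∧
      (U.map (evJ ℤ)).eval
        ((p : LaurentSeries ℤ) ^ 12 * qExpand ℤ p (DlL ℤ) * DlLinv ℤ) = 0 ∧
      IdentB p ζu Φ G (p + 1) := by
  set ζ : Lˣ := Units.map (f : Λu →* L) ζu with hζdef
  have hsum := sum_zpow_of_isPrimitiveRoot p hp ζ hprim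
  have hP : ∀ n m, ∑ s, numFam p ζ s ^ n * unitFam p ζ s ^ m ∈ subalgJ p L := fun n m => by
    obtain ⟨g, hg⟩ := powerSum_mem p ζ hA hp hsum n m
    rw [hg]
    exact evBase_mem_subalgJ p L g
  have hU0 : ∀ m, ∑ s, unitFam p ζ s ^ m ∈ subalgJ p L := fun m => by simpa using hP 0 m
  -- the product of the units is a nonzero rational constant
  obtain ⟨g0, hg0⟩ := prod_mem_of_psum_mem (subalgJ p L) (unitFam p ζ) (fun k _ => hU0 k)
  have hg0' : aeval (jBase p L) g0 = ∏ s, unitFam p ζ s := hg0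
  have hmono := isMono_prod_unitFam p ζ
  set c0 : L := (p : L) ^ 12 * ∏ b ∈ Finset.range p, ((ζ ^ b : Lˣ) : L) with hc0def
  have hc0sq : c0 * c0 = (p : L) ^ 24 := by
    have h1 : (∏ b ∈ Finset.range p, ((ζ ^ b : Lˣ) : L)) * (∏ b ∈ Finset.range p, ((ζ ^ b : Lˣ) : L))
        = 1 := by
      have h2 : ∏ b ∈ Finset.range p, ((ζ ^ b : Lˣ) : L) = ((ζ ^ (∑ b ∈ Finset.range p, b) : Lˣ) : L) := by
        rw [← Finset.prod_pow_eq_pow_sum]
        simp
      rw [h2, ← Units.val_mul, ← pow_add, ← mul_two, Finset.sum_range_id_mul_two, pow_mul,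
        hprim.pow_eq_one, one_pow, Units.val_one]
    calc c0 * c0 = (p : L) ^ 24 * ((∏ b ∈ Finset.range p, ((ζ ^ b : Lˣ) : L)) *
          (∏ b ∈ Finset.range p, ((ζ ^ b : Lˣ) : L))) := by rw [hc0def]; ring
      _ = (p : L) ^ 24 := by rw [h1, mul_one]
  have hpL : (p : L) ≠ 0 := Nat.cast_ne_zero.mpr hp.ne_zero
  have hc0ne : c0 ≠ 0 := by
    intro h
    rw [h, mul_zero] at hc0sq
    exact pow_ne_zero 24 hpL hc0sq.symm
  obtain ⟨q0, hq0, hgC⟩ := eq_C_of_isMono L p g0 c0 (by rw [hg0']; exact hmono)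
  have hq0ne : q0 ≠ 0 := by
    rintro rfl
    exact hc0ne (by rw [← hq0, map_zero])
  have hprodeq : ∏ s, unitFam p ζ s = algebraMap ℚ (LaurentSeries L) q0 := by
    rw [← hg0', hgC, aeval_C]
  have hd1 : algebraMap ℚ (LaurentSeries L) q0⁻¹ * ∏ s, unitFam p ζ s = 1 := by
    rw [hprodeq, ← map_mul, inv_mul_cancel₀ hq0ne, map_one]
  -- coefficients in `ℚ[j]`
  have hUB : ∀ i, (UB p ζ).coeff i ∈ subalgJ p L :=
    coeff_prod_X_sub_C_mem (subalgJ p L) (unitFam p ζ) hU0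
  have hΦB : ∀ i, (PhiB p ζ).coeff i ∈ subalgJ p L :=
    coeff_prod_X_sub_C_quot_mem (subalgJ p L) (numFam p ζ) (unitFam p ζ) (rootFam p ζ)
      (rootFam_mul_unitFam p ζ) hP _ (Subalgebra.algebraMap_mem _ _) hd1
  have hGB : ∀ i, (GB p ζ (p + 1)).coeff i ∈ subalgJ p L :=
    coeff_interp_mem (subalgJ p L) (numFam p ζ) (unitFam p ζ) (rootFam p ζ)
      (rootFam_mul_unitFam p ζ) hP hΦB (p + 1) (by simp)
  -- lifts to `ℤ[Y][X]`
  have hUl : UB p ζ ∈ lifts (evBase p L) := by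
    rw [hζdef, ← map_UB]
    exact mem_lifts_evBase p L f hint _ (by rw [map_UB]; exact hUB)
  have hΦl : PhiB p ζ ∈ lifts (evBase p L) := by
    rw [hζdef, ← map_PhiB]
    exact mem_lifts_evBase p L f hint _ (by rw [map_PhiB]; exact hΦB)
  have hGl : GB p ζ (p + 1) ∈ lifts (evBase p L) := by
    rw [hζdef, ← map_GB]
    exact mem_lifts_evBase p L f hint _ (by rw [map_GB]; exact hGB)
  obtain ⟨U, hU, -, hUm⟩ := lifts_and_degree_eq_and_monic hUl
    (monic_prod_of_monic _ _ fun s _ => monic_X_sub_C _)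
  obtain ⟨Φ, hΦ, -, hΦm⟩ := lifts_and_degree_eq_and_monic hΦl
    (monic_prod_of_monic _ _ fun s _ => monic_X_sub_C _)
  obtain ⟨G, hG⟩ := (mem_lifts _).mp hGl
  -- the constant term of `U`
  have hUc0 : evBase p L (U.coeff 0) =
      HahnSeries.C ((-1 : L) ^ (p + 1)) * ∏ s, unitFam p ζ s := by
    rw [← coeff_map, hU, UB, coeff_zero_eq_eval_zero, eval_prod]
    simp only [eval_sub, eval_X, eval_C, zero_sub]
    rw [Finset.prod_neg, Finset.card_univ, Fintype.card_option, Fintype.card_fin, map_pow, map_neg,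
      map_one]
  have hmono' : IsMono (aeval (jBase p L) ((U.coeff 0).map (Int.castRingHom ℚ))) 0
      ((-1 : L) ^ (p + 1) * c0) := by
    rw [← evBase_eq_aeval, hUc0]
    simpa using (isMono_C ((-1 : L) ^ (p + 1))).mul hmono
  obtain ⟨q1, hq1, hq1C⟩ := eq_C_of_isMono L p _ _ hmono'
  have hq1' : (((U.coeff 0).coeff 0 : ℤ) : ℚ) = q1 := by
    have := congrArg (fun P => P.coeff 0) hq1C
    simpa using this
  have hUC : U.coeff 0 = C ((U.coeff 0).coeff 0) := by
    apply Polynomial.map_injective (Int.castRingHom ℚ) Int.cast_injective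
    rw [hq1C, map_C, ← hq1']
    rfl
  have hcc : (U.coeff 0).coeff 0 * (U.coeff 0).coeff 0 = (p : ℤ) ^ 24 := by
    have h1 : (((U.coeff 0).coeff 0 : ℤ) : L) = (-1 : L) ^ (p + 1) * c0 := by
      rw [← hq1, ← hq1']
      simp
    apply Int.cast_injective (α := L)
    push_cast
    rw [h1]
    calc (-1 : L) ^ (p + 1) * c0 * ((-1 : L) ^ (p + 1) * c0)
        = ((-1 : L) * (-1)) ^ (p + 1) * (c0 * c0) := by rw [mul_pow]; ring
      _ = (p : L) ^ 24 := by rw [hc0sq]; simp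
  -- the equation of `U` over `ℤ((q))`
  have hUeq : (U.map (evJ ℤ)).eval
      ((p : LaurentSeries ℤ) ^ 12 * qExpand ℤ p (DlL ℤ) * DlLinv ℤ) = 0 := by
    set ψ : LaurentSeries ℤ →+* LaurentSeries L :=
      (qExpand L p).comp (coeffMap (Int.castRingHom L)) with hψ
    have hψinj : Function.Injective ψ :=
      (qExpand_injective p).comp (coeffMap_injective _ Int.cast_injective)
    have hψev : ψ.comp (evJ ℤ) = evBase p L := by
      refine RingHom.ext fun g => ?_
      rw [evBase_eq, ← coeffMap_comp_evJ (Int.castRingHom L)]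
      rfl
    have hψx : ψ ((p : LaurentSeries ℤ) ^ 12 * qExpand ℤ p (DlL ℤ) * DlLinv ℤ) = unitInf p L := by
      have h1 : coeffMap (Int.castRingHom L)
          ((p : LaurentSeries ℤ) ^ 12 * qExpand ℤ p (DlL ℤ) * DlLinv ℤ) =
          (p : LaurentSeries L) ^ 12 * qExpand L p (DlL L) * DlLinv L := by
        rw [map_mul, map_mul, map_pow, map_natCast, coeffMap_qExpand, coeffMap_DlL,
          coeffMap_DlLinv]
      rw [unitInf_eq, hψ, RingHom.comp_apply, h1]
    apply hψinj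
    rw [map_zero, ← eval₂_at_apply, ← eval_map, map_map, hψev, hψx, hU, UB, eval_prod]
    exact Finset.prod_eq_zero (Finset.mem_univ none) (by simp [unitFam])
  -- the identities over `L`
  have hId : IdentB p ζ Φ G (p + 1) := by
    refine ⟨by rw [hΦ, PhiB_eq], ?_, fun b hb => ?_⟩
    · rw [hΦ, hG]
      exact eval_interp (fun s => unitFam p ζ s ^ (p + 1)) (rootFam p ζ) none
    · rw [hΦ, hG]
      exact eval_interp (fun s => unitFam p ζ s ^ (p + 1)) (rootFam p ζ) (some ⟨b, hb⟩)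
  exact ⟨Φ, U, G, (U.coeff 0).coeff 0, hΦm, hUm, hUC, hcc, hUeq,
    hId.pull f p hf⟩

/-- **`S28.BData` with the exponent `p + 1`.** -/
theorem exists_BData (p : ℕ) [NeZero p] (hp : p.Prime) :
    ∃ (Φ U G : ℤ[X][X]) (c : ℤ), BData p Φ U G (p + 1) c := by
  obtain ⟨Λu, _, L, _, _, f, ζu, hf, hint, hprim, huniv⟩ := exists_universal p hp
  obtain ⟨Φ, U, G, c, hΦ, hU, hU0, hc, hUeq, hId⟩ :=
    statementB_aux_explicit statementA p hp L Λu f ζu hf hint hprim
  refine ⟨Φ, U, G, c, Nat.succ_pos p, hΦ, hU, hU0, hc, hUeq, fun K _ ζ hζ => ?_⟩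
  obtain ⟨g, hg⟩ := huniv K ζ hζ
  have h := hId.push g p
  rw [hg] at h
  exact h

end Fermat.Agent.MR.Eis
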