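import Fermat.Agent.MR.Interface

/-!
# MR / Eis / Defs : block EIS.  Definitions and contracts of the sub-blocks.

`k` a field, `E k M ⊆ k((t))` the Igusa function field of level `M`.
* `alphaB k M ℓ : E k M → E k (M ℓ)` the inclusion, `betaB k M ℓ : v(t) ↦ v(t^ℓ)`;
* `NB k M ℓ = Norm_α ∘ β` the multiplicative Hecke operator `T̄_ℓ` on `E k M`.

Sub-blocks:
* `ValStatement`     (EIS-A) `T̄_ℓ` preserves "all the orders off the cusps are divisible by `n`";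
* `RedNormStatement` (EIS-B) `red_∞ (N_ℓ U) = T̄_ℓ (red_∞ U)`;
* `PsiStatement`     (EIS-C) the meter `Ψ` in `F(M p)`, `N_ℓ Ψ = c Ψ^(ℓ+1)`, and its reduction.
`MR/Eis/Main.lean` : `EisStatement` from these three.
-/

set_option autoImplicit false
set_option linter.unusedSectionVars false

noncomputable section

namespace Fermat.Agent.MR.Eis

open AlgebraicCurve ModularCurve Fermat.Agent.S24 Fermat.Agent.GAL Fermat.Agent.GAL.Hecke
  Fermat.Agent.GAL.RED Fermat.Agent.DR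

section Bar

variable (k : Type) [Field k] (M ℓ : ℕ) [NeZero M] [NeZero ℓ]

/-- the inclusion `E k M ⊆ E k (M ℓ)`. -/
def alphaB : Igusa.E k M →ₐ[k] Igusa.E k (M * ℓ) :=
  IntermediateField.inclusion (full_degeneracyC_le k (dvd_mul_right M ℓ))

theorem coe_alphaB (v : Igusa.E k M) :
    ((alphaB k M ℓ v : Igusa.E k (M * ℓ)) : LaurentSeries k) = (v : LaurentSeries k) :=
  IntermediateField.coe_inclusion (full_degeneracyC_le k (dvd_mul_right M ℓ)) v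

/-- `v(t) ↦ v(t^ℓ)`. -/
def betaB : Igusa.E k M →ₐ[k] Igusa.E k (M * ℓ) :=
  ((qExpandAlgHomC k ℓ).comp (modularFunctionFieldFullC k M).val).codRestrict
    (modularFunctionFieldFullC k (M * ℓ)).toSubalgebra
    (fun v => full_degeneracyC_map_le k M ℓ ⟨(v : LaurentSeries k), v.2, rfl⟩)

theorem coe_betaB (v : Igusa.E k M) :
    ((betaB k M ℓ v : Igusa.E k (M * ℓ)) : LaurentSeries k) = qExpand k ℓ (v : LaurentSeries k) :=
  rfl

/-- the multiplicative Hecke operator on `E k M`. -/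
def NB : Igusa.E k M →* Igusa.E k M :=
  (normAlong (alphaB k M ℓ)).comp ((betaB k M ℓ : Igusa.E k M →+* Igusa.E k (M * ℓ)) : _ →* _)

end Bar

/-- **(EIS-A)** -/
def ValStatement : Prop :=
  ∀ (k : Type) [Field k] [IsAlgClosed k] (M ℓ n : ℕ) [NeZero M] [NeZero ℓ], ℓ.Prime →
    ((M * ℓ : ℕ) : k) ≠ 0 → ∀ v : Igusa.E k M, v ≠ 0 →
      (∀ P : Place k (Igusa.E k M), 0 ≤ P.ord (Igusa.jb k M) → (n : ℤ) ∣ P.ord v) →
      ∀ P : Place k (Igusa.E k M), 0 ≤ P.ord (Igusa.jb k M) → (n : ℤ) ∣ P.ord (NB k M ℓ v)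

/-- **(EIS-B)** -/
def RedNormStatement : Prop :=
  ∀ (M p ℓ : ℕ) [NeZero M] [NeZero p] [NeZero ℓ] (hp : p.Prime) (hpM : ¬ p ∣ M), ℓ.Prime →
    ¬ ℓ ∣ M * p → ∀ (A : ValuationSubring Kbar) (hA : A.LiesOverPrime p) (U : FN (M * p)),
      (Conc.R1 A M p hp hpM hA).red U ≠ 0 →
      (Conc.R1 A M p hp hpM hA).red (heckeNorm Kbar (M * p) ℓ U) =
        NB (kk A) M ℓ ((Conc.R1 A M p hp hpM hA).red U)

/-- **(EIS-C)** -/
def PsiStatement : Prop :=
  ∀ (M p : ℕ) [NeZero M] [NeZero p] (hp : p.Prime) (hpM : ¬ p ∣ M),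
    ∃ Ψ : FN (M * p), Ψ ≠ 0 ∧
      (∀ (ℓ : ℕ) [NeZero ℓ], ℓ.Prime → ¬ ℓ ∣ M * p → ∃ c : Kbar, c ≠ 0 ∧
        heckeNorm Kbar (M * p) ℓ Ψ = algebraMap Kbar (FN (M * p)) c * Ψ ^ (ℓ + 1)) ∧
      ∀ (A : ValuationSubring Kbar) (hA : A.LiesOverPrime p),
        (((Conc.R1 A M p hp hpM hA).red Ψ : Igusa.E (kk A) M) : LaurentSeries (kk A)) =
          meterS (kk A) p ∧ (Conc.R1 A M p hp hpM hA).red Ψ ≠ 0

end Fermat.Agent.MR.Eis
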