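import Fermat.Agent.MR.Eis.BExp
import Fermat.Agent.GAL.Hecke.SeriesRed

/-!
# MR/Eis (S44, block EIS): the multiplicative Hecke operator on `Δ` (formal series, characteristic 0)

`Δ(t^{l²}) ∏_{b<l} Δ(ζ^b t) = c Δ(t^l)^{l+1}`, `c ≠ 0` (extracted from the proof of `S28.statementB_aux`: the product of
the `l + 1` units `l¹² Δ(t^{l²})/Δ(t^l)`, `Δ(ζ^b t)/Δ(t^l)` is a polynomial in `j(t^l)` without pole, hence a constant).
-/

set_option autoImplicit false

noncomputable section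

namespace Fermat.Agent.MR.Eis

open ModularCurve Polynomial Fermat.Agent.S28

variable (l : ℕ) [NeZero l] (hl : l.Prime) (L : Type) [Field L] [CharZero L] (ζ : Lˣ)
  (hprim : IsPrimitiveRoot ζ l)

include hl hprim in
/-- the product of the units is a nonzero rational constant. -/
theorem prod_unitFam :
    ∃ q0 : ℚ, q0 ≠ 0 ∧ ∏ s, unitFam l ζ s = algebraMap ℚ (LaurentSeries L) q0 := by
  have hA := statementA
  have hsum := sum_zpow_of_isPrimitiveRoot l hl ζ hprim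
  have hP : ∀ n m, ∑ s, numFam l ζ s ^ n * unitFam l ζ s ^ m ∈ subalgJ l L := fun n m => by
    obtain ⟨g, hg⟩ := powerSum_mem l ζ hA hl hsum n m
    rw [hg]
    exact evBase_mem_subalgJ l L g
  have hU0 : ∀ m, ∑ s, unitFam l ζ s ^ m ∈ subalgJ l L := fun m => by simpa using hP 0 m
  obtain ⟨g0, hg0⟩ := prod_mem_of_psum_mem (subalgJ l L) (unitFam l ζ) (fun k _ => hU0 k)
  have hg0' : aeval (jBase l L) g0 = ∏ s, unitFam l ζ s := hg0
  have hmono := isMono_prod_unitFam l ζ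
  set c0 : L := (l : L) ^ 12 * ∏ b ∈ Finset.range l, ((ζ ^ b : Lˣ) : L) with hc0def
  have hpL : (l : L) ≠ 0 := Nat.cast_ne_zero.mpr hl.ne_zero
  have hc0ne : c0 ≠ 0 :=
    mul_ne_zero (pow_ne_zero _ hpL) (Finset.prod_ne_zero_iff.mpr fun b _ => Units.ne_zero _)
  obtain ⟨q0, hq0, hgC⟩ := eq_C_of_isMono L l g0 c0 (by rw [hg0']; exact hmono)
  have hq0ne : q0 ≠ 0 := by
    rintro rfl
    exact hc0ne (by rw [← hq0, map_zero])
  exact ⟨q0, hq0ne, by rw [← hg0', hgC, aeval_C]⟩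

theorem qExpand_DlL_mul_inv (d : ℕ) [NeZero d] : qExpand L d (DlL L) * qExpand L d (DlLinv L) = 1 := by
  rw [← map_mul, DlL_mul_DlLinv, map_one]

include hl hprim in
/-- **`Δ(t^{l²}) ∏_b Δ(ζ^b t) = c Δ(t^l)^{l+1}`.** -/
theorem eta_identity :
    ∃ c : L, c ≠ 0 ∧ qExpand L l (qExpand L l (DlL L)) * ∏ b ∈ Finset.range l, twist (ζ ^ b) (DlL L) =
      HahnSeries.C c * qExpand L l (DlL L) ^ (l + 1) := by
  obtain ⟨q0, hq0, h⟩ := prod_unitFam l hl L ζ hprim
  have hpL : (l : L) ≠ 0 := Nat.cast_ne_zero.mpr hl.ne_zero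
  refine ⟨algebraMap ℚ L q0 * ((l : L) ^ 12)⁻¹,
    mul_ne_zero ((_root_.map_ne_zero _).mpr hq0) (inv_ne_zero (pow_ne_zero _ hpL)), ?_⟩
  rw [Fintype.prod_option] at h
  simp only [unitFam, unitInf, unitFin] at h
  rw [Finset.prod_mul_distrib, Finset.prod_const, Finset.card_univ, Fintype.card_fin,
    Fin.prod_univ_eq_prod_range (fun b => twist (ζ ^ b) (DlL L)) l] at h
  have hq : algebraMap ℚ (LaurentSeries L) q0 = HahnSeries.C (algebraMap ℚ L q0) :=
    DFunLike.congr_fun (RingHom.ext_rat (algebraMap ℚ (LaurentSeries L))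
      ((HahnSeries.C : L →+* LaurentSeries L).comp (algebraMap ℚ L))) q0
  have hlC : (l : LaurentSeries L) = HahnSeries.C (l : L) := by rw [map_natCast]
  have hCl : (HahnSeries.C ((l : L) ^ 12)⁻¹ : LaurentSeries L) * (l : LaurentSeries L) ^ 12 = 1 := by
    rw [hlC, ← map_pow, ← map_mul, inv_mul_cancel₀ (pow_ne_zero _ hpL), map_one]
  have hD := qExpand_DlL_mul_inv L l
  set D := qExpand L l (DlL L)
  set Di := qExpand L l (DlLinv L)
  set X := qExpand L l D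
  set Y := ∏ b ∈ Finset.range l, twist (ζ ^ b) (DlL L)
  have hDi : (D * Di) ^ (l + 1) = 1 := by rw [hD, one_pow]
  calc X * Y = (HahnSeries.C ((l : L) ^ 12)⁻¹ * (l : LaurentSeries L) ^ 12) * (X * Y) *
        (D * Di) ^ (l + 1) := by rw [hCl, hDi, one_mul, mul_one]
    _ = HahnSeries.C ((l : L) ^ 12)⁻¹ * ((l : LaurentSeries L) ^ 12 * X * Di * (Y * Di ^ l)) *
        D ^ (l + 1) := by rw [mul_pow, pow_succ Di]; ring
    _ = _ := by rw [h, hq, map_mul]; ring

include hl hprim in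
/-- the same for `1/Δ`. -/
theorem eta_identity_inv :
    ∃ c : L, c ≠ 0 ∧ qExpand L l (qExpand L l (DlLinv L)) *
        ∏ b ∈ Finset.range l, twist (ζ ^ b) (DlLinv L) =
      HahnSeries.C c * qExpand L l (DlLinv L) ^ (l + 1) := by
  obtain ⟨c, hc, h⟩ := eta_identity l hl L ζ hprim
  refine ⟨c⁻¹, inv_ne_zero hc, ?_⟩
  have h1 : (qExpand L l (qExpand L l (DlL L)) * ∏ b ∈ Finset.range l, twist (ζ ^ b) (DlL L)) *
      (qExpand L l (qExpand L l (DlLinv L)) * ∏ b ∈ Finset.range l, twist (ζ ^ b) (DlLinv L)) = 1 := by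
    rw [mul_mul_mul_comm, ← map_mul, ← map_mul, ← Finset.prod_mul_distrib, DlL_mul_DlLinv, map_one,
      map_one, one_mul]
    refine Finset.prod_eq_one fun b _ => ?_
    rw [← map_mul, DlL_mul_DlLinv, map_one]
  have h2 : (HahnSeries.C c * qExpand L l (DlL L) ^ (l + 1)) *
      (HahnSeries.C c⁻¹ * qExpand L l (DlLinv L) ^ (l + 1)) = 1 := by
    rw [mul_mul_mul_comm, ← map_mul, mul_inv_cancel₀ hc, map_one, one_mul, ← mul_pow,
      qExpand_DlL_mul_inv, one_pow]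
  rw [h] at h1
  have h3 : HahnSeries.C c * qExpand L l (DlL L) ^ (l + 1) ≠ 0 := left_ne_zero_of_mul_eq_one h2
  exact mul_left_cancel₀ h3 (h1.trans h2.symm)

end Fermat.Agent.MR.Eis
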