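import Fermat.Agent.S36R.KS.Theta
import Fermat.Agent.S28.Interface

/-!
# MR / Eis / HQSeries : logarithmic derivatives of Laurent series and the formal Hecke operator

`k` a field, `θ = q d/dq`, `dlog v = θ v / v`.  If `w(q^ℓ) = v(q^{ℓ²}) ∏_{i<ℓ} v(ζ^i q)` (`ζ` a primitive `ℓ`-th root of unity, `ℓ ≠ 0`
in `k`) then `dlog w = T_ℓ (dlog v)` (weight two): `(dlog w)_n = (dlog v)_{nℓ} + ℓ (dlog v)_{n/ℓ}`.
-/

set_option autoImplicit false

noncomputable section

namespace Fermat.Agent.MR.Eis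

open ModularCurve Fermat.Agent.S36R.KS

variable {k : Type*} [Field k]

/-- the logarithmic derivative `θ v / v`. -/
def dlog (v : LaurentSeries k) : LaurentSeries k := theta v * v⁻¹

theorem dlog_mul {x y : LaurentSeries k} (hx : x ≠ 0) (hy : y ≠ 0) :
    dlog (x * y) = dlog x + dlog y := by
  unfold dlog
  rw [theta_mul, mul_inv]
  field_simp
  ring

theorem dlog_one : dlog (1 : LaurentSeries k) = 0 := by
  unfold dlog
  have : theta (1 : LaurentSeries k) = 0 := by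
    have := theta_natCast (R := k) 1
    simpa using this
  rw [this, zero_mul]

theorem dlog_prod {ι : Type*} (s : Finset ι) (f : ι → LaurentSeries k) (hf : ∀ i ∈ s, f i ≠ 0) :
    dlog (∏ i ∈ s, f i) = ∑ i ∈ s, dlog (f i) := by
  classical
  induction s using Finset.induction_on with
  | empty => simp [dlog_one]
  | insert a s ha ih =>
    rw [Finset.prod_insert ha, Finset.sum_insert ha,
      dlog_mul (hf a (Finset.mem_insert_self _ _))
        (Finset.prod_ne_zero_iff.mpr fun i hi => hf i (Finset.mem_insert_of_mem hi)),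
      ih fun i hi => hf i (Finset.mem_insert_of_mem hi)]

theorem dlog_pow {x : LaurentSeries k} (hx : x ≠ 0) (n : ℕ) :
    dlog (x ^ n) = (n : LaurentSeries k) * dlog x := by
  induction n with
  | zero => simp [dlog_one]
  | succ n ih =>
    rw [pow_succ, dlog_mul (pow_ne_zero _ hx) hx, ih]
    push_cast
    ring

theorem dlog_inv {x : LaurentSeries k} (hx : x ≠ 0) : dlog x⁻¹ = - dlog x := by
  have h := dlog_mul hx (inv_ne_zero hx)
  rw [mul_inv_cancel₀ hx, dlog_one] at h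
  exact (neg_eq_of_add_eq_zero_right h.symm).symm

theorem dlog_zpow {x : LaurentSeries k} (hx : x ≠ 0) (n : ℤ) :
    dlog (x ^ n) = (n : LaurentSeries k) * dlog x := by
  cases n with
  | ofNat n => simpa using dlog_pow hx n
  | negSucc n =>
    rw [zpow_negSucc, dlog_inv (pow_ne_zero _ hx), dlog_pow hx]
    push_cast
    ring

theorem dlog_qExpand (d : ℕ) [NeZero d] (x : LaurentSeries k) :
    dlog (qExpand k d x) = (d : LaurentSeries k) * qExpand k d (dlog x) := by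
  unfold dlog
  rw [theta_qExpand, map_mul, map_inv₀, mul_assoc]

theorem dlog_twist (c : kˣ) (x : LaurentSeries k) :
    dlog (S28.twist c x) = S28.twist c (dlog x) := by
  unfold dlog
  rw [theta_twist, map_mul, map_inv₀]

/-- a `p`-th power has `dlog = 0` in characteristic `p`. -/
theorem dlog_pow_char (p : ℕ) [CharP k p] {x : LaurentSeries k} (hx : x ≠ 0) :
    dlog (x ^ p) = 0 := by
  rw [dlog_pow hx]
  have : (p : LaurentSeries k) = 0 := by
    rw [← map_natCast (HahnSeries.C : k →+* LaurentSeries k), CharP.cast_eq_zero, map_zero]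
  rw [this, zero_mul]

/-- **Leaf HQ-S1.** `∑_{i<ℓ} b(ζ^i q)` picks the coefficients of index divisible by `ℓ`.
PROOF: `HahnSeries.coeff_sum`-style (`map_sum` for `HahnSeries.coeff` via `HahnSeries.coeff.addMonoidHom`, or induction), `S28.twist_coeff`:
the coefficient is `(∑_i (ζ^i)^n) b_n`; if `ℓ ∣ n` each term is `1`; otherwise `ζ^n ≠ 1` is a root of `1 + X + ⋯ + X^(ℓ-1)`
(`IsPrimitiveRoot.pow_eq_one_iff_dvd` / `zpow_eq_one_iff_dvd`, `geom_sum_eq`/`mul_neg_geom_sum`, `Fin.sum_univ_eq_sum_range`). -/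
theorem coeff_sum_twist {ℓ : ℕ} [NeZero ℓ] (ζ : kˣ) (hζ : IsPrimitiveRoot ζ ℓ) (b : LaurentSeries k)
    (n : ℤ) :
    (∑ i : Fin ℓ, S28.twist (ζ ^ (i : ℕ)) b).coeff n = if (ℓ : ℤ) ∣ n then (ℓ : k) * b.coeff n else 0 := by
  have hterm : ∀ i : Fin ℓ, (S28.twist (ζ ^ (i : ℕ)) b).coeff n =
      (((ζ ^ n : kˣ) : k)) ^ (i : ℕ) * b.coeff n := by
    intro i
    rw [S28.twist_coeff, ← Units.val_pow_eq_pow_val]
    congr 2
    rw [← zpow_natCast ζ (i : ℕ), ← zpow_mul, mul_comm, zpow_mul, zpow_natCast]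
  rw [HahnSeries.coeff_sum, Finset.sum_congr rfl fun i _ => hterm i, ← Finset.sum_mul,
    Fin.sum_univ_eq_sum_range (fun i => (((ζ ^ n : kˣ) : k)) ^ i) ℓ]
  split_ifs with hd
  · rw [(hζ.zpow_eq_one_iff_dvd n).2 hd]
    simp
  · have hne : ((ζ ^ n : kˣ) : k) - 1 ≠ 0 := by
      intro h0
      apply hd
      rw [← hζ.zpow_eq_one_iff_dvd n]
      exact Units.ext (sub_eq_zero.1 h0)
    have hpow : (((ζ ^ n : kˣ) : k)) ^ ℓ = 1 := by
      rw [← Units.val_pow_eq_pow_val, ← zpow_natCast (ζ ^ n) ℓ, ← zpow_mul, mul_comm, zpow_mul,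
        zpow_natCast, hζ.pow_eq_one, one_zpow, Units.val_one]
    have hg := geom_sum_mul (((ζ ^ n : kˣ) : k)) ℓ
    rw [hpow, sub_self] at hg
    rw [(mul_eq_zero.1 hg).resolve_right hne, zero_mul]

/-- **The formal Hecke relation.** -/
theorem coeff_dlog_of_norm {ℓ : ℕ} [NeZero ℓ] (hℓ : (ℓ : k) ≠ 0) (ζ : kˣ) (hζ : IsPrimitiveRoot ζ ℓ)
    {v w : LaurentSeries k} (hv : v ≠ 0)
    (h : qExpand k ℓ w = qExpand k (ℓ * ℓ) v * ∏ i : Fin ℓ, S28.twist (ζ ^ (i : ℕ)) v) (n : ℤ) :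
    (dlog w).coeff n =
      (dlog v).coeff (n * ℓ) + (if (ℓ : ℤ) ∣ n then (ℓ : k) * (dlog v).coeff (n / ℓ) else 0) := by
  have hC : ∀ m : ℕ, (m : LaurentSeries k) = HahnSeries.C (m : k) := fun m => by rw [map_natCast]
  have hq : qExpand k (ℓ * ℓ) v ≠ 0 :=
    (map_ne_zero_iff _ (qExpand_injective (R := k) (N := ℓ * ℓ))).mpr hv
  have ht : ∀ i ∈ (Finset.univ : Finset (Fin ℓ)), S28.twist (ζ ^ (i : ℕ)) v ≠ 0 := by
    intro i _
    exact (map_ne_zero_iff _ (RingHom.injective _)).mpr hv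
  have h1 := congrArg dlog h
  rw [dlog_mul hq (Finset.prod_ne_zero_iff.mpr ht), dlog_prod _ _ ht, dlog_qExpand, dlog_qExpand] at h1
  simp only [dlog_twist] at h1
  have h2 := congrArg (fun s => HahnSeries.coeff s (ℓ * n)) h1
  simp only [HahnSeries.coeff_add] at h2
  rw [coeff_sum_twist ζ hζ, if_pos (dvd_mul_right _ _), hC, hC, HahnSeries.C_mul_eq_smul,
    HahnSeries.C_mul_eq_smul, HahnSeries.coeff_smul, HahnSeries.coeff_smul, qExpand_coeff_mul,
    smul_eq_mul, smul_eq_mul] at h2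
  have h3 : (qExpand k (ℓ * ℓ) (dlog v)).coeff (ℓ * n) =
      if (ℓ : ℤ) ∣ n then (dlog v).coeff (n / ℓ) else 0 := by
    have hℓ0 : (ℓ : ℤ) ≠ 0 := by exact_mod_cast NeZero.ne ℓ
    split_ifs with hd
    · obtain ⟨m, rfl⟩ := hd
      rw [Int.mul_ediv_cancel_left _ hℓ0]
      have : (ℓ : ℤ) * (ℓ * m) = ((ℓ * ℓ : ℕ) : ℤ) * m := by push_cast; ring
      rw [this, qExpand_coeff_mul]
    · apply qExpand_coeff_of_not_dvd
      intro hd'
      apply hd
      push_cast at hd'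
      exact (mul_dvd_mul_iff_left hℓ0).mp hd'
  rw [h3] at h2
  apply mul_left_cancel₀ hℓ
  rw [h2, mul_comm n (ℓ : ℤ)]
  push_cast
  split_ifs <;> ring

end Fermat.Agent.MR.Eis
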