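import Fermat.Agent.MR.Interface
import Fermat.Agent.MR.Eis.HQSeries
import Fermat.Agent.GAL.Hecke.NormFormulaCore
import Fermat.Agent.GAL.Hecke.HeckeBasic

/-!
# MR / Eis / HQ : `HQStatement` (`θ ū / ū` is a `T_ℓ`-eigenseries)
-/

set_option autoImplicit false

noncomputable section

namespace Fermat.Agent.MR.Eis

open AlgebraicCurve ModularCurve Fermat.Agent.S24 Fermat.Agent.GAL Fermat.Agent.GAL.Hecke
  Fermat.Agent.GAL.RED Fermat.Agent.GAL.Gauss Fermat.Agent.DR Fermat.Agent.DR.Conc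

section Gauss

variable {K : Type*} [Field K] (A : ValuationSubring K)

/-- **Leaf HQ-R1.** the residue map commutes with `t ↦ c t`, `c` a unit of `A`.
PROOF: copy `DR.Conc.gRes_twist` (`DR/Conc/Series.lean`), without the simplification `hu`: `gRes_eq A _ (z := twist _ z) (g := twist _ g)`,
`Series_pA_twist`, `map_div₀`. -/
theorem gRes_twist_gen {c : K} (hc0 : c ≠ 0) (hc : c ∈ A) (hc' : c⁻¹ ∈ A) {x : LaurentSeries K}
    (hx : x ∈ gRing A) :
    gRes A ⟨_, twist_mem_gRing A hc0 hc hc' hx⟩ =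
      S28.twist (Units.map (IsLocalRing.residue ↥A : ↥A →* IsLocalRing.ResidueField ↥A)
        (Series_unit A hc0 hc hc')) (gRes A ⟨x, hx⟩) := by
  obtain ⟨z, g, hg, h⟩ := (mem_gRing_iff A).mp hx
  rw [gRes_eq A _ (z := Fermat.Agent.S28.twist (Series_unit A hc0 hc hc') z)
      (g := Fermat.Agent.S28.twist (Series_unit A hc0 hc hc') g) (by
      rw [Series_pA_twist]
      exact Series_twist_ne_zero _ hg) (by
      show iA A _ * Fermat.Agent.S24.twist c hc0 x = _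
      rw [Series_iA_twist, Series_iA_twist, ← map_mul, h]),
    gRes_eq A ⟨x, _⟩ hg h, Series_pA_twist, Series_pA_twist, map_div₀]

/-- **Leaf HQ-R2.** a primitive `ℓ`-th root of unity is a unit of `A` and stays primitive in the residue field if `ℓ ≠ 0` there.
PROOF: copy the proof of `S48.Igusa1.Deg.exists_isZetaA` (`S48/Igusa1/Deg/Int.lean`; do NOT import it). -/
theorem exists_zetaA (ℓ : ℕ) [NeZero ℓ] (hℓ : ((ℓ : ℕ) : IsLocalRing.ResidueField ↥A) ≠ 0) (ζ : K)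
    (hζ : IsPrimitiveRoot ζ ℓ) :
    ∃ (h0 : ζ ≠ 0) (h1 : ζ ∈ A) (h2 : ζ⁻¹ ∈ A),
      IsPrimitiveRoot (Units.map (IsLocalRing.residue ↥A : ↥A →* IsLocalRing.ResidueField ↥A)
        (Series_unit A h0 h1 h2)) ℓ := by
  classical
  have hM0 : 0 < ℓ := Nat.pos_of_ne_zero (NeZero.ne ℓ)
  have hmem : ∀ x : K, x ^ ℓ = 1 → x ∈ A := by
    intro x hx
    rcases A.mem_or_inv_mem x with h | h
    · exact h
    · have h1 : x = x⁻¹ ^ (ℓ - 1) := by
        have hx0 : x ≠ 0 := by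
          rintro rfl
          rw [zero_pow (NeZero.ne ℓ)] at hx
          exact zero_ne_one hx
        have hM1 : ℓ = (ℓ - 1) + 1 := (Nat.succ_pred_eq_of_pos hM0).symm
        rw [hM1, pow_succ] at hx
        rw [inv_pow]
        field_simp
        rw [mul_comm, hx]
      rw [h1]
      exact pow_mem h _
  have h0 : ζ ≠ 0 := hζ.ne_zero (NeZero.ne ℓ)
  have h1 : ζ ∈ A := hmem _ hζ.pow_eq_one
  have h2 : ζ⁻¹ ∈ A := hmem _ (by rw [inv_pow, hζ.pow_eq_one, inv_one])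
  refine ⟨h0, h1, h2, ?_⟩
  set ζA : (↥A)ˣ := Series_unit A h0 h1 h2 with hζA
  have hcoe : ((ζA : ↥A) : K) = ζ := rfl
  have hprimA' : IsPrimitiveRoot (ζA : ↥A) ℓ := by
    refine IsPrimitiveRoot.of_map_of_injective (f := A.subtype) ?_ Subtype.val_injective
    exact hζ
  have hprimA : IsPrimitiveRoot ζA ℓ := IsPrimitiveRoot.coe_units_iff.1 hprimA'
  -- the reduction is injective on the roots of unity
  have hsep : (Polynomial.X ^ ℓ - Polynomial.C (1 : IsLocalRing.ResidueField ↥A)).Separable :=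
    Polynomial.separable_X_pow_sub_C 1 hℓ one_ne_zero
  have hprod := congrArg (Polynomial.map (IsLocalRing.residue ↥A))
    (Polynomial.X_pow_sub_one_eq_prod hM0 hprimA')
  rw [Polynomial.map_prod] at hprod
  simp only [Polynomial.map_sub, Polynomial.map_pow, Polynomial.map_X, Polynomial.map_one,
    Polynomial.map_C] at hprod
  rw [Polynomial.C_1, hprod, Polynomial.separable_prod_X_sub_C_iff'] at hsep
  have hne : ∀ i : ℕ, 0 < i → i < ℓ → IsLocalRing.residue ↥A ((ζA : ↥A) ^ i) ≠ 1 := by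
    intro i hi0 hiM h
    have h1 := hsep ((ζA : ↥A) ^ i)
      (by rw [Polynomial.mem_nthRootsFinset hM0, ← pow_mul, mul_comm, pow_mul, hprimA'.pow_eq_one,
        one_pow])
      1 (by rw [Polynomial.mem_nthRootsFinset hM0, one_pow]) (by rw [h, map_one])
    exact hprimA'.pow_ne_one_of_pos_of_lt hi0.ne' hiM h1
  refine IsPrimitiveRoot.mk_of_lt _ hM0 (by rw [← map_pow, hprimA.pow_eq_one, map_one]) ?_
  intro l hl0 hlM h
  apply hne l hl0 hlM
  have := congrArg Units.val h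
  rw [← map_pow, Units.coe_map, Units.val_one, Units.val_pow_eq_pow_val] at this
  exact this

end Gauss

variable (A : ValuationSubring Kbar) (M p : ℕ) [NeZero M] [NeZero p] (hp : p.Prime)
  (hpM : ¬ p ∣ M) (hA : A.LiesOverPrime p)

/-- **Leaf HQ-R3.** the reduction of the norm formula.
PROOF. `x := (u : LaurentSeries Kbar) ∈ gRing A` (`mem_of_red_ne_zero`, `mem_R1_O_iff`), `v := gRes A ⟨x, _⟩ ≠ 0` (`coe_R1_red`).
`ζ : Kbar` a primitive `ℓ`-th root of unity (`HasEnoughRootsOfUnity.exists_primitiveRoot Kbar ℓ`), `exists_zetaA` (`(ℓ : kk A) ≠ 0` because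
`CharP (kk A) p` (`Hecke.charP_residueField A hp hA`) and `ℓ ≠ p`: `CharP.cast_eq_zero_iff`, `Nat.prime_dvd_prime_iff_eq`).
`NormFormula.qExpand_heckeNorm' hℓ hℓN hζ u` : `qExpand ℓ (heckeNorm u) = qExpand (ℓ*ℓ) x * ∏ i, S24.twist (ζ^i) _ x`.  The right-hand
side is in `gRing A` (`qExpand_mem_gRing`, `twist_mem_gRing` for `ζ^i`, `Subring.prod_mem`, `Subring.mul_mem`), so `heckeNorm u ∈ gRing A` by
`mem_gRing_of_qExpand`.  Apply `gRes A` (a ring hom on `↥(gRing A)`: write both sides as elements of the subring, `map_mul`, `map_prod`),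
`gRes_qExpand`, `gRes_twist_gen`; `Series_unit` of `ζ^i` is `(Series_unit ζ)^i` (`Units.ext`, `Subtype.ext`), `map_pow`. -/
theorem qExpand_red_heckeNorm (u : FN (M * p)) (hu : (R1 A M p hp hpM hA).red u ≠ 0) {ℓ : ℕ} [NeZero ℓ]
    (hℓ : ℓ.Prime) (hℓN : ¬ ℓ ∣ M * p) :
    ∃ ζb : (kk A)ˣ, IsPrimitiveRoot ζb ℓ ∧
      qExpand (kk A) ℓ
          (((R1 A M p hp hpM hA).red (heckeNorm Kbar (M * p) ℓ u) : Igusa.E (kk A) M) :
            LaurentSeries (kk A)) =
        qExpand (kk A) (ℓ * ℓ) (((R1 A M p hp hpM hA).red u : Igusa.E (kk A) M) : LaurentSeries (kk A)) *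
          ∏ i : Fin ℓ, S28.twist (ζb ^ (i : ℕ))
            (((R1 A M p hp hpM hA).red u : Igusa.E (kk A) M) : LaurentSeries (kk A)) := by
  have hx : (u : LaurentSeries Kbar) ∈ gRing A :=
    (mem_R1_O_iff A M p hp hpM hA u).1 ((R1 A M p hp hpM hA).mem_of_red_ne_zero hu)
  have hℓk : ((ℓ : ℕ) : kk A) ≠ 0 := by
    have : CharP (kk A) p := Hecke.charP_residueField A hp hA
    rw [Ne, CharP.cast_eq_zero_iff (kk A) p]
    intro h
    rw [(Nat.prime_dvd_prime_iff_eq hp hℓ).mp h] at hℓN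
    exact hℓN (dvd_mul_left _ _)
  obtain ⟨ζ, hζ⟩ := HasEnoughRootsOfUnity.exists_primitiveRoot Kbar ℓ
  obtain ⟨h0, h1, h2, hprim⟩ := exists_zetaA A ℓ hℓk ζ hζ
  refine ⟨_, hprim, ?_⟩
  have hform := NormFormula.qExpand_heckeNorm' hℓ hℓN hζ u
  have hi0 : ∀ i : ℕ, ζ ^ i ≠ 0 := fun i => pow_ne_zero _ h0
  have hi1 : ∀ i : ℕ, ζ ^ i ∈ A := fun i => pow_mem h1 i
  have hi2 : ∀ i : ℕ, (ζ ^ i)⁻¹ ∈ A := fun i => by rw [← inv_pow]; exact pow_mem h2 i
  have htw : ∀ i : ℕ, Fermat.Agent.S24.twist (ζ ^ i) (hi0 i) (u : LaurentSeries Kbar) ∈ gRing A :=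
    fun i => twist_mem_gRing A (hi0 i) (hi1 i) (hi2 i) hx
  have hq2 : qExpand Kbar (ℓ * ℓ) (u : LaurentSeries Kbar) ∈ gRing A :=
    qExpand_mem_gRing A (ℓ * ℓ) hx
  have hprod : (∏ i : Fin ℓ, Fermat.Agent.S24.twist (ζ ^ (i : ℕ)) (hi0 i)
      (u : LaurentSeries Kbar)) ∈ gRing A := prod_mem fun i _ => htw i
  have hN' : qExpand Kbar ℓ ((heckeNorm Kbar (M * p) ℓ u : FN (M * p)) : LaurentSeries Kbar) ∈
      gRing A := by
    rw [hform]; exact mul_mem hq2 hprod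
  have hN : ((heckeNorm Kbar (M * p) ℓ u : FN (M * p)) : LaurentSeries Kbar) ∈ gRing A :=
    mem_gRing_of_qExpand A ℓ hN'
  rw [coe_R1_red A M p hp hpM hA _ hN, coe_R1_red A M p hp hpM hA _ hx, ← gRes_qExpand A ℓ hN,
    ← gRes_qExpand A (ℓ * ℓ) hx]
  have htwr : ∀ i : ℕ, S28.twist
      ((Units.map (IsLocalRing.residue ↥A : ↥A →* IsLocalRing.ResidueField ↥A)
        (Series_unit A h0 h1 h2)) ^ i) (gRes A ⟨_, hx⟩) = gRes A ⟨_, htw i⟩ := by
    intro i
    have e : Series_unit A h0 h1 h2 ^ i = Series_unit A (hi0 i) (hi1 i) (hi2 i) := by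
      apply Units.ext
      apply Subtype.ext
      rw [Units.val_pow_eq_pow_val]
      rfl
    rw [gRes_twist_gen A (hi0 i) (hi1 i) (hi2 i) hx, ← map_pow, e]
  have hpr : (∏ i : Fin ℓ, S28.twist
      ((Units.map (IsLocalRing.residue ↥A : ↥A →* IsLocalRing.ResidueField ↥A)
        (Series_unit A h0 h1 h2)) ^ (i : ℕ)) (gRes A ⟨_, hx⟩)) =
      gRes A (∏ i : Fin ℓ, ⟨_, htw i⟩) := by
    rw [map_prod]
    exact Finset.prod_congr rfl fun i _ => htwr i
  rw [hpr, ← map_mul]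
  congr 1
  apply Subtype.ext
  rw [Subring.coe_mul]
  have hcoe : (((∏ i : Fin ℓ, (⟨_, htw i⟩ : ↥(gRing A))) : ↥(gRing A)) : LaurentSeries Kbar) =
      ∏ i : Fin ℓ, Fermat.Agent.S24.twist (ζ ^ (i : ℕ)) (hi0 i) (u : LaurentSeries Kbar) :=
    map_prod (gRing A).subtype _ _
  rw [hcoe]
  exact hform

include hp hA in
theorem natCast_ne_zero_kk {ℓ : ℕ} (hℓ : ℓ.Prime) (hℓN : ¬ ℓ ∣ M * p) : ((ℓ : ℕ) : kk A) ≠ 0 := by
  have : CharP (kk A) p := Hecke.charP_residueField A hp hA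
  rw [Ne, CharP.cast_eq_zero_iff (kk A) p]
  intro h
  rw [(Nat.prime_dvd_prime_iff_eq hp hℓ).mp h] at hℓN
  exact hℓN (dvd_mul_left _ _)

/-- **(EIS, series part).** -/
theorem hq : HQStatement := by
  intro M' p _ _ hp hpM A hA u ℓ _ a hu hℓ hℓN hT
  have hchar : CharP (kk A) p := Hecke.charP_residueField A hp hA
  set R := Conc.R1 A M' p hp hpM hA with hR
  -- `T_ℓ u = u ^ a * y ^ p`
  rw [heckeT_mk (heckeNormPreserves (M' * p) ℓ p)] at hT
  have hT' : KV.mk (⟨Units.map (heckeNorm Kbar (M' * p) ℓ) u,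
      heckeNormPreserves (M' * p) ℓ p u u.2⟩ : kummerUnits Kbar (FN (M' * p)) p) = KV.mk (u ^ a) := by
    rw [hT]
    rfl
  obtain ⟨y, hy⟩ := (KV.mk_eq_mk_iff _ _).mp hT'
  have hy' : (y : FN (M' * p)) ^ p * ((u : (FN (M' * p))ˣ) : FN (M' * p)) ^ a =
      heckeNorm Kbar (M' * p) ℓ ((u : (FN (M' * p))ˣ) : FN (M' * p)) := by
    have := congrArg (fun z : (FN (M' * p))ˣ => (z : FN (M' * p))) hy
    simpa using this
  set u₀ : FN (M' * p) := ((u : (FN (M' * p))ˣ) : FN (M' * p)) with hu₀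
  obtain ⟨ζb, hζb, hnorm⟩ := qExpand_red_heckeNorm A M' p hp hpM hA u₀ hu hℓ hℓN
  set v : LaurentSeries (kk A) := ((R.red u₀ : Igusa.E (kk A) M') : LaurentSeries (kk A)) with hv
  have hv0 : v ≠ 0 := by
    intro h
    exact hu (Subtype.ext h)
  set w : LaurentSeries (kk A) :=
    ((R.red (heckeNorm Kbar (M' * p) ℓ u₀) : Igusa.E (kk A) M') : LaurentSeries (kk A)) with hw
  have hw0 : w ≠ 0 := by
    intro h
    rw [h, map_zero] at hnorm
    have h1 : qExpand (kk A) (ℓ * ℓ) v ≠ 0 :=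
      (map_ne_zero_iff _ (qExpand_injective (R := kk A) (N := ℓ * ℓ))).mpr hv0
    have h2 : ∏ i : Fin ℓ, S28.twist (ζb ^ (i : ℕ)) v ≠ 0 :=
      Finset.prod_ne_zero_iff.mpr fun i _ => (map_ne_zero_iff _ (RingHom.injective _)).mpr hv0
    exact mul_ne_zero h1 h2 hnorm.symm
  have hw0' : R.red (heckeNorm Kbar (M' * p) ℓ u₀) ≠ 0 := by
    intro h
    apply hw0
    rw [hw, h]
    rfl
  -- the reduction of `y`
  have hua : R.red (u₀ ^ a) ≠ 0 := by
    rw [R.red_zpow hu]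
    exact zpow_ne_zero _ hu
  have hyp : (y : FN (M' * p)) ^ p = heckeNorm Kbar (M' * p) ℓ u₀ * (u₀ ^ a)⁻¹ := by
    rw [← hy']
    have : u₀ ^ a ≠ 0 := zpow_ne_zero _ (u : (FN (M' * p))ˣ).ne_zero
    field_simp
  have hred : R.red (heckeNorm Kbar (M' * p) ℓ u₀) = R.red (y : FN (M' * p)) ^ p * R.red u₀ ^ a := by
    rw [← R.red_pow, hyp, R.red_mul (R.mem_of_red_ne_zero hw0') (R.inv_mem_of_red_ne_zero hua),
      R.red_inv, R.red_zpow hu, mul_assoc, inv_mul_cancel₀ (zpow_ne_zero _ hu), mul_one]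
  have hy0 : R.red (y : FN (M' * p)) ≠ 0 := by
    intro h
    rw [h, zero_pow hp.ne_zero, zero_mul] at hred
    exact hw0' hred
  have hwv : w = ((R.red (y : FN (M' * p)) : Igusa.E (kk A) M') : LaurentSeries (kk A)) ^ p * v ^ a := by
    rw [hw, hred]
    push_cast
    rfl
  have hy0' : ((R.red (y : FN (M' * p)) : Igusa.E (kk A) M') : LaurentSeries (kk A)) ≠ 0 := by
    intro h
    exact hy0 (Subtype.ext h)
  have hdl : dlog w = (a : LaurentSeries (kk A)) * dlog v := by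
    rw [hwv, dlog_mul (pow_ne_zero _ hy0') (zpow_ne_zero _ hv0), dlog_pow_char p hy0', zero_add,
      dlog_zpow hv0]
  intro n
  have key := coeff_dlog_of_norm (natCast_ne_zero_kk A M' p hp hA hℓ hℓN) ζb hζb hv0 hnorm n
  rw [hdl] at key
  have hC : (a : LaurentSeries (kk A)) = HahnSeries.C (a : kk A) := by rw [map_intCast]
  rw [hC, HahnSeries.C_mul_eq_smul, HahnSeries.coeff_smul, smul_eq_mul] at key
  exact key.symm

end Fermat.Agent.MR.Eis
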