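import Fermat.Agent.MR.Eis.Eta
import Fermat.Agent.MR.Interface
import Fermat.Agent.S36R.Unit.Gauss

/-!
# MR/Eis (S44, block EIS): the meter `Ψ = (Δ(t)/Δ(t^p))^(p+1)`

* `meter_identity` : the formal multiplicative Hecke operator maps `meterS` to `c meterS^(l+1)`;
* `exists_Psi`     : `meterS Kbar p` is (the expansion of) an element `Ψ` of `FN (M * p)`;
* `heckeNorm_Psi`  : `heckeNorm Ψ = c Ψ^(l+1)`;
* `coe_red_Psi`    : the reduction of `Ψ` at `∞` is `meterS k p`.
-/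

set_option autoImplicit false
set_option linter.unusedSectionVars false

noncomputable section

namespace Fermat.Agent.MR.Eis

open ModularCurve Fermat.Agent.S28 Fermat.Agent.S24 Fermat.Agent.GAL Fermat.Agent.GAL.Hecke
  Fermat.Agent.GAL.Gauss Fermat.Agent.DR

section Formal

variable (l : ℕ) [NeZero l] (hl : l.Prime) (p : ℕ) [NeZero p] (hlp : ¬ l ∣ p)
  (L : Type) [Field L] [CharZero L] (ζ : Lˣ) (hprim : IsPrimitiveRoot ζ l)

/-- the formal multiplicative Hecke operator. -/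
def NForm (x : LaurentSeries L) : LaurentSeries L :=
  qExpand L l (qExpand L l x) * ∏ b ∈ Finset.range l, twist (ζ ^ b) x

theorem NForm_mul (x y : LaurentSeries L) : NForm l L ζ (x * y) = NForm l L ζ x * NForm l L ζ y := by
  simp only [NForm, map_mul, Finset.prod_mul_distrib]
  ring

theorem NForm_pow (x : LaurentSeries L) (n : ℕ) : NForm l L ζ (x ^ n) = NForm l L ζ x ^ n := by
  simp only [NForm, map_pow, Finset.prod_pow, mul_pow]

theorem qExpand_comm (a b : ℕ) [NeZero a] [NeZero b] (x : LaurentSeries L) :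
    qExpand L a (qExpand L b x) = qExpand L b (qExpand L a x) := by
  rw [qExpand_qExpand, qExpand_qExpand]
  exact qExpand_congr (mul_comm a b) x

theorem NForm_qExpand (x : LaurentSeries L) :
    NForm l L ζ (qExpand L p x) = qExpand L p (NForm l L (ζ ^ p) x) := by
  simp only [NForm, map_mul, map_prod]
  congr 1
  · rw [qExpand_comm L l p, qExpand_comm L l p (qExpand L l x)]
  · refine Finset.prod_congr rfl fun b _ => ?_
    rw [twist_qExpand, ← pow_mul, ← pow_mul, mul_comm b p]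

include hl hlp hprim in
/-- **the meter is an eigenfunction of the multiplicative Hecke operator.** -/
theorem meter_identity :
    ∃ c : L, c ≠ 0 ∧ NForm l L ζ (meterS L p) = HahnSeries.C c * qExpand L l (meterS L p ^ (l + 1)) := by
  have hprim' : IsPrimitiveRoot (ζ ^ p) l :=
    hprim.pow_of_coprime p ((Nat.Prime.coprime_iff_not_dvd hl).mpr hlp).symm
  obtain ⟨c1, hc1, h1⟩ := eta_identity l hl L ζ hprim
  obtain ⟨c2, hc2, h2⟩ := eta_identity_inv l hl L (ζ ^ p) hprim'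
  refine ⟨(c1 * c2) ^ (p + 1), pow_ne_zero _ (mul_ne_zero hc1 hc2), ?_⟩
  have h1' : NForm l L ζ (DlL L) = HahnSeries.C c1 * qExpand L l (DlL L) ^ (l + 1) := h1
  have h2' : NForm l L (ζ ^ p) (DlLinv L) = HahnSeries.C c2 * qExpand L l (DlLinv L) ^ (l + 1) := h2
  have hC : qExpand L p (HahnSeries.C c2 : LaurentSeries L) = HahnSeries.C c2 := by
    rw [HahnSeries.C_apply, qExpand_single, mul_zero]
  rw [meterS, NForm_pow, NForm_mul, NForm_qExpand, h1', h2', map_mul, hC, map_pow,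
    qExpand_comm L p l]
  simp only [map_pow, map_mul]
  ring

end Formal

section Psi

variable (M p : ℕ) [NeZero M] [NeZero p] (hp : p.Prime)

include hp in
/-- `meterS Kbar p` is a function of level `M p`. -/
theorem exists_Psi : ∃ Ψ : FN (M * p), (Ψ : LaurentSeries Kbar) = meterS Kbar p := by
  obtain ⟨Φ, U, G, c, hB⟩ := exists_BData p hp
  obtain ⟨ζ₀, hζ₀⟩ : ∃ ζ : Kbar, IsPrimitiveRoot ζ p :=
    HasEnoughRootsOfUnity.exists_primitiveRoot Kbar p
  let ζ : Kbarˣ := hζ₀.isUnit hp.ne_zero |>.unit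
  have hζ : IsPrimitiveRoot ζ p := IsPrimitiveRoot.coe_units_iff.mp hζ₀
  have hj : jqModC Kbar ∈ modularFunctionFieldBar (M * p) := by
    rw [Igusa.modularFunctionFieldBar_eq]
    exact jqModC_mem_full Kbar (M * p)
  have hjp : qExpand Kbar p (jqModC Kbar) ∈ modularFunctionFieldBar (M * p) := by
    rw [Igusa.modularFunctionFieldBar_eq]
    exact jqModCd_mem_full Kbar (M * p) (dvd_mul_left p M)
  refine ⟨S36R.Unit.psiOf Φ G (⟨_, hjp⟩ : FN (M * p)) ⟨_, hj⟩, ?_⟩
  have h1 := S36R.Unit.map_psiOf (NormFormula.valN (M * p)) Φ G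
    (⟨_, hjp⟩ : FN (M * p)) ⟨_, hj⟩
  have h2 := S36R.Unit.psiOf_down hB hp ζ hζ
  exact h1.trans h2

variable (l : ℕ) [NeZero l] (hl : l.Prime) (hlMp : ¬ l ∣ M * p)

include hl hlMp in
/-- **`T_l Ψ = c Ψ^(l+1)`.** -/
theorem heckeNorm_Psi (Ψ : FN (M * p)) (hΨ : (Ψ : LaurentSeries Kbar) = meterS Kbar p) :
    ∃ c : Kbar, c ≠ 0 ∧ heckeNorm Kbar (M * p) l Ψ = algebraMap Kbar (FN (M * p)) c * Ψ ^ (l + 1) := by
  obtain ⟨ζ₀, hζ₀⟩ : ∃ ζ : Kbar, IsPrimitiveRoot ζ l :=
    HasEnoughRootsOfUnity.exists_primitiveRoot Kbar l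
  let ζ : Kbarˣ := hζ₀.isUnit hl.ne_zero |>.unit
  have hζ : IsPrimitiveRoot ζ l := IsPrimitiveRoot.coe_units_iff.mp hζ₀
  obtain ⟨c, hc, h⟩ := meter_identity l hl p (fun h => hlMp (h.mul_left M)) Kbar ζ hζ
  refine ⟨c, hc, Subtype.ext (qExpand_injective (R := Kbar) (N := l) ?_)⟩
  rw [qExpand_heckeNorm (M * p) l hl hlMp ζ hζ Ψ, hΨ]
  refine Eq.trans h ?_
  have hC : qExpand Kbar l (HahnSeries.C c : LaurentSeries Kbar) = HahnSeries.C c := by
    rw [HahnSeries.C_apply, qExpand_single, mul_zero]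
  rw [IntermediateField.coe_mul, IntermediateField.coe_pow, Conc.coe_algebraMap_FN, hΨ, map_mul, hC]

end Psi

section Red

theorem coeffMap_meterS {R S : Type*} [CommRing R] [CommRing S] (f : R →+* S) (p : ℕ) [NeZero p] :
    coeffMap f (meterS R p) = meterS S p := by
  rw [meterS, meterS, map_pow, map_mul, coeffMap_qExpand, cpar_coeffMap_DlL, cpar_coeffMap_DlLinv]

theorem meterS_ne_zero (k : Type*) [Field k] (p : ℕ) [NeZero p] : meterS k p ≠ 0 := by
  have h1 : DlL k * DlLinv k = 1 := DlL_mul_DlLinv k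
  refine pow_ne_zero _ (mul_ne_zero (left_ne_zero_of_mul_eq_one h1) ?_)
  exact (map_ne_zero_iff _ (qExpand_injective (R := k) (N := p))).mpr (right_ne_zero_of_mul_eq_one h1)

variable (A : ValuationSubring Kbar) (M p : ℕ) [NeZero M] [NeZero p] (hp : p.Prime)
  (hpM : ¬ p ∣ M) (hA : A.LiesOverPrime p)

/-- the reduction of `Ψ` at `∞` is `meterS k p`. -/
theorem coe_red_Psi (Ψ : FN (M * p)) (hΨ : (Ψ : LaurentSeries Kbar) = meterS Kbar p) :
    (((Conc.R1 A M p hp hpM hA).red Ψ : Igusa.E (IsLocalRing.ResidueField ↥A) M) :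
      LaurentSeries (IsLocalRing.ResidueField ↥A)) = meterS (IsLocalRing.ResidueField ↥A) p := by
  rw [Conc.coe_R1_red_of_iA A M p hp hpM hA Ψ (meterS ↥A p)
    (by rw [hΨ, Fermat.Agent.GAL.Gauss.iA, coeffMap_meterS])]
  rw [Fermat.Agent.GAL.Gauss.pA, coeffMap_meterS]

theorem red_Psi_ne_zero (Ψ : FN (M * p)) (hΨ : (Ψ : LaurentSeries Kbar) = meterS Kbar p) :
    (Conc.R1 A M p hp hpM hA).red Ψ ≠ 0 := by
  intro h
  have h1 := coe_red_Psi A M p hp hpM hA Ψ hΨ
  rw [h] at h1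
  exact meterS_ne_zero _ p h1.symm

end Red

end Fermat.Agent.MR.Eis
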