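import Fermat.Agent.MR.Eis.RedHecke
import Fermat.Agent.MR.Eis.Meter

/-!
# MR/Eis (S44, block EIS): `EisStatement`
-/

set_option autoImplicit false
set_option linter.unusedSectionVars false

noncomputable section

namespace Fermat.Agent.MR.Eis

open AlgebraicCurve ModularCurve Fermat.Agent.S24 Fermat.Agent.GAL Fermat.Agent.GAL.Hecke
  Fermat.Agent.GAL.Igusa Fermat.Agent.GAL.RED Fermat.Agent.GAL.Gauss Fermat.Agent.DR

theorem KV_mk_zpow {K F : Type*} [Field K] [Field F] [Algebra K F] {m : ℕ}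
    (u : kummerUnits K F m) (a : ℤ) : KV.mk (u ^ a) = a • KV.mk u := rfl

theorem eq_one_of_pow_eq_one' {Γ : Type*} [LinearOrderedCommGroupWithZero Γ] {x : Γ} {n : ℕ}
    (hn : n ≠ 0) (h : x ^ n = 1) : x = 1 := by
  rcases lt_trichotomy x 1 with h1 | h1 | h1
  · exact absurd h (pow_lt_one₀ zero_le' h1 hn).ne
  · exact h1
  · exact absurd h (one_lt_pow₀ h1 hn).ne'

theorem not_dvd_twelve {p : ℕ} (hp : p.Prime) (h5 : 5 ≤ p) : ¬ p ∣ 12 := by
  intro h
  have h12 := Nat.le_of_dvd (by norm_num) h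
  interval_cases p <;> revert hp h <;> decide

theorem TBar_ne_zero (k : Type) [Field k] (M l : ℕ) [NeZero M] [NeZero l] {x : E k M} (hx : x ≠ 0) :
    TBar k M l x ≠ 0 := by
  intro h
  have h1 : TBar k M l x * TBar k M l x⁻¹ = 1 := by
    rw [← map_mul, mul_inv_cancel₀ hx, map_one]
  rw [h, zero_mul] at h1
  exact zero_ne_one h1

variable (A : ValuationSubring Kbar) (M p : ℕ) [NeZero M] [NeZero p] (hp : p.Prime)
  (hpM : ¬ p ∣ M) (hA : A.LiesOverPrime p)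
variable (l : ℕ) [NeZero l] (hl : l.Prime) (hlMp : ¬ l ∣ M * p)

include hl hlMp in
/-- an eigenclass of `T_l`, reduced at `∞`. -/
theorem exists_TBar_eq (u : kummerUnits Kbar (FN (M * p)) p) (a : ℤ)
    (hu : (Conc.R1 A M p hp hpM hA).red ((u : (FN (M * p))ˣ) : FN (M * p)) ≠ 0)
    (hT : heckeT Kbar (M * p) l p (KV.mk u) = a • KV.mk u) :
    ∃ h : E (IsLocalRing.ResidueField ↥A) M, h ≠ 0 ∧
      TBar (IsLocalRing.ResidueField ↥A) M l
          ((Conc.R1 A M p hp hpM hA).red ((u : (FN (M * p))ˣ) : FN (M * p))) =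
        (Conc.R1 A M p hp hpM hA).red ((u : (FN (M * p))ˣ) : FN (M * p)) ^ a * h ^ p := by
  set R := Conc.R1 A M p hp hpM hA with hR
  rw [heckeT_mk (heckeNormPreserves (M * p) l p) u, ← KV_mk_zpow, KV.mk_eq_mk_iff] at hT
  obtain ⟨y, hy⟩ := hT
  have hy' : (y : FN (M * p)) ^ p * ((u : (FN (M * p))ˣ) : FN (M * p)) ^ a =
      heckeNorm Kbar (M * p) l ((u : (FN (M * p))ˣ) : FN (M * p)) := by
    have := congrArg (fun z : (FN (M * p))ˣ => (z : FN (M * p))) hy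
    simpa [Units.val_zpow_eq_zpow_val] using this
  obtain ⟨-, h2⟩ := red_heckeNorm_TBar A M p hp hpM hA l hl hlMp _ (R.mem_of_red_ne_zero hu)
  have h3 : R.red (heckeNorm Kbar (M * p) l ((u : (FN (M * p))ˣ) : FN (M * p))) ≠ 0 := by
    rw [h2]
    exact TBar_ne_zero _ M l hu
  have hua : R.red (((u : (FN (M * p))ˣ) : FN (M * p)) ^ a) ≠ 0 := by
    rw [R.red_zpow hu]
    exact zpow_ne_zero _ hu
  have hv : R.O.valuation (y : FN (M * p)) = 1 := by
    have h4 := R.red_ne_zero_iff_valuation.mp h3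
    rw [← hy', map_mul, R.red_ne_zero_iff_valuation.mp hua, mul_one, map_pow] at h4
    exact eq_one_of_pow_eq_one' hp.ne_zero h4
  have hyr : R.red (y : FN (M * p)) ≠ 0 := R.red_ne_zero_iff_valuation.mpr hv
  refine ⟨R.red (y : FN (M * p)), hyr, ?_⟩
  have hyp : R.red ((y : FN (M * p)) ^ p) ≠ 0 := by
    rw [R.red_pow]
    exact pow_ne_zero _ hyr
  rw [← h2, ← hy', R.red_mul (R.mem_of_red_ne_zero hyp) (R.mem_of_red_ne_zero hua), R.red_pow,
    R.red_zpow hu, mul_comm]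

include hp hpM hA hl hlMp in
/-- the meter, reduced at `∞`. -/
theorem exists_TBar_meter (ψ : E (IsLocalRing.ResidueField ↥A) M)
    (hψ : (ψ : LaurentSeries (IsLocalRing.ResidueField ↥A)) = meterS (IsLocalRing.ResidueField ↥A) p) :
    ∃ c : IsLocalRing.ResidueField ↥A, c ≠ 0 ∧
      TBar (IsLocalRing.ResidueField ↥A) M l ψ =
        algebraMap (IsLocalRing.ResidueField ↥A) (E (IsLocalRing.ResidueField ↥A) M) c * ψ ^ (l + 1) := by
  set R := Conc.R1 A M p hp hpM hA with hR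
  obtain ⟨Ψ, hΨ⟩ := exists_Psi M p hp
  obtain ⟨c, hc, hN⟩ := heckeNorm_Psi M p l hl hlMp Ψ hΨ
  have hred : R.red Ψ = ψ := Subtype.ext ((coe_red_Psi A M p hp hpM hA Ψ hΨ).trans hψ.symm)
  have hΨ0 : R.red Ψ ≠ 0 := red_Psi_ne_zero A M p hp hpM hA Ψ hΨ
  obtain ⟨-, h2⟩ := red_heckeNorm_TBar A M p hp hpM hA l hl hlMp Ψ (R.mem_of_red_ne_zero hΨ0)
  have h3 : R.red (heckeNorm Kbar (M * p) l Ψ) ≠ 0 := by
    rw [h2]
    exact TBar_ne_zero _ M l hΨ0
  have hpw : R.red (Ψ ^ (l + 1)) ≠ 0 := by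
    rw [R.red_pow]
    exact pow_ne_zero _ hΨ0
  have hcv : R.red (algebraMap Kbar (FN (M * p)) c) ≠ 0 := by
    have h4 := R.red_ne_zero_iff_valuation.mp h3
    rw [hN, map_mul, R.red_ne_zero_iff_valuation.mp hpw, mul_one] at h4
    exact R.red_ne_zero_iff_valuation.mpr h4
  refine ⟨R.redA c, ?_, ?_⟩
  · intro h0
    rw [R.red_algebraMap', h0, map_zero] at hcv
    exact hcv rfl
  · rw [← hred, ← h2, hN, R.red_mul (R.mem_of_red_ne_zero hcv) (R.mem_of_red_ne_zero hpw),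
      R.red_algebraMap', R.red_pow]

/-- **Block EIS.** -/
theorem eisStatement : EisStatement := by
  intro M p _ _ hp hpM h5 h4 A hA u κ ℓ _ a hu hslope hℓ hℓMp hT hna
  obtain ⟨Ψ, hΨ⟩ := exists_Psi M p hp
  set R := Conc.R1 A M p hp hpM hA with hR
  have hψ := coe_red_Psi A M p hp hpM hA Ψ hΨ
  have hψ0 := red_Psi_ne_zero A M p hp hpM hA Ψ hΨ
  obtain ⟨h, hh0, hTu⟩ := exists_TBar_eq A M p hp hpM hA ℓ hℓ hℓMp u a hu hT
  obtain ⟨c, hc0, hTψ⟩ := exists_TBar_meter A M p hp hpM hA ℓ hℓ hℓMp (R.red Ψ) hψ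
  have hMl := natCast_Ml_ne_zero A M p hp hpM hA ℓ hℓ hℓMp
  have hpZ : Prime (p : ℤ) := Nat.prime_iff_prime_int.mp hp
  have key := core (nonCusp (IsLocalRing.ResidueField ↥A) M) (TBar (IsLocalRing.ResidueField ↥A) M ℓ) p
    (fun y hy0 hy => TBar_preserves _ M ℓ hMl hy0 hy)
    (R.red ((u : (FN (M * p))ˣ) : FN (M * p))) (R.red Ψ) h
    (algebraMap (IsLocalRing.ResidueField ↥A) (E (IsLocalRing.ResidueField ↥A) M) c)
    hu hψ0 hh0 ((map_ne_zero _).mpr hc0) (fun P _ => Fermat.Agent.S24.ord_algebraMap P c)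
    (12 * ((p : ℤ) + 1)) κ a ℓ hTu hTψ
    (fun P hP => ((hslope (R.red Ψ) hψ P).1 hP))
    (by
      rw [Prime.coprime_iff_not_dvd hpZ]
      intro hd
      rcases hpZ.dvd_or_dvd hd with h12 | h1
      · exact not_dvd_twelve hp h5 (by exact_mod_cast h12)
      · have : (p : ℤ) ∣ 1 := (dvd_add_right (dvd_refl _)).mp h1
        exact hpZ.not_dvd_one this)
    (by
      rw [Prime.coprime_iff_not_dvd hpZ]
      intro hd
      exact hna (by rwa [sub_sub] at hd))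
  intro P
  by_cases hP : 0 ≤ P.ord (jb (IsLocalRing.ResidueField ↥A) M)
  · exact key P hP
  · exact (hslope (R.red Ψ) hψ P).2 (not_le.mp hP)

end Fermat.Agent.MR.Eis
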