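import Fermat.Agent.MR.Eis.RedNorm

/-!
# MR/Eis (S44, block EIS): reduction at `∞` commutes with the multiplicative Hecke operators (concrete form)
-/

set_option autoImplicit false
set_option linter.style.haveILetI false
set_option linter.unusedSectionVars false

noncomputable section

namespace Fermat.Agent.MR.Eis

open AlgebraicCurve ModularCurve Fermat.Agent.S24 Fermat.Agent.GAL Fermat.Agent.GAL.Hecke
  Fermat.Agent.GAL.Igusa Fermat.Agent.GAL.RED Fermat.Agent.GAL.Gauss Fermat.Agent.DR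
  Fermat.Agent.DR.Abs

theorem coe_towerAlgebraMap (k : Type) [Field k] {N M : ℕ} [NeZero N] [NeZero M] (h : N ∣ M)
    (x : E k N) :
    (((towerAlgebra k h).algebraMap x : E k M) : LaurentSeries k) = (x : LaurentSeries k) :=
  IntermediateField.coe_inclusion _ x

/-- (kernel friendly form of `Subtype.ext`: never let the kernel compare `Subtype.val ⟨↑x, _⟩` with `↑x`.) -/
theorem mk_gRing_congr (A : ValuationSubring Kbar) (a b : LaurentSeries Kbar) (ha : a ∈ gRing A)
    (hb : b ∈ gRing A) (h : a = b) : (⟨a, ha⟩ : ↥(gRing A)) = ⟨b, hb⟩ := by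
  subst h
  rfl

variable (A : ValuationSubring Kbar) (M p : ℕ) [NeZero M] [NeZero p] (hp : p.Prime)
  (hpM : ¬ p ∣ M) (hA : A.LiesOverPrime p)
variable (l : ℕ) [NeZero l] (hl : l.Prime) (hlMp : ¬ l ∣ M * p)

section aux

variable (R' : RedData Kbar (FN (M * p * l)) (IsLocalRing.ResidueField ↥A)
    (E (IsLocalRing.ResidueField ↥A) (M * l)))
  (hO' : ∀ x : FN (M * p * l), x ∈ R'.O ↔ (x : LaurentSeries Kbar) ∈ gRing A)
  (hred' : ∀ (x : FN (M * p * l)) (hx : (x : LaurentSeries Kbar) ∈ gRing A),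
        ((R'.red x : E (IsLocalRing.ResidueField ↥A) (M * l)) :
          LaurentSeries (IsLocalRing.ResidueField ↥A)) = gRes A ⟨_, hx⟩)

include hO' in
theorem aux_mem_alpha (y : FN (M * p)) (hy : y ∈ (Conc.R1 A M p hp hpM hA).O) :
    heckeAlphaBar Kbar (M * p) l y ∈ R'.O := by
  rw [hO', coe_heckeAlphaBar]
  exact hy

include hred' in
theorem aux_red_alpha (y : FN (M * p)) (hy : y ∈ (Conc.R1 A M p hp hpM hA).O) :
    R'.red (heckeAlphaBar Kbar (M * p) l y) =
      (towerAlgebra (IsLocalRing.ResidueField ↥A) (dvd_mul_right M l)).algebraMap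
        ((Conc.R1 A M p hp hpM hA).red y) := by
  apply Subtype.ext
  have hy0 : (y : LaurentSeries Kbar) ∈ gRing A := hy
  have hy' : ((heckeAlphaBar Kbar (M * p) l y : FN (M * p * l)) : LaurentSeries Kbar)
      ∈ gRing A := by
    rw [coe_heckeAlphaBar]; exact hy
  have e : (⟨((heckeAlphaBar Kbar (M * p) l y : FN (M * p * l)) : LaurentSeries Kbar), hy'⟩ :
      ↥(gRing A)) = ⟨(y : LaurentSeries Kbar), hy0⟩ := mk_gRing_congr A _ _ _ _ (coe_heckeAlphaBar (M * p) l y)
  rw [hred' _ hy', coe_towerAlgebraMap, Conc.coe_R1_red A M p hp hpM hA y hy0, e]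

theorem aux_mem_beta (u : FN (M * p)) (hu : u ∈ (Conc.R1 A M p hp hpM hA).O) :
    ((heckeBetaBar Kbar (M * p) l u : FN (M * p * l)) : LaurentSeries Kbar) ∈ gRing A := by
  have hu' : (u : LaurentSeries Kbar) ∈ gRing A := hu
  rw [coe_heckeBetaBar]
  exact Conc.qExpand_mem_gRing A l hu'

include hred' in
theorem aux_red_beta (u : FN (M * p)) (hu : u ∈ (Conc.R1 A M p hp hpM hA).O) :
    R'.red (heckeBetaBar Kbar (M * p) l u) =
      betaBar (IsLocalRing.ResidueField ↥A) M l ((Conc.R1 A M p hp hpM hA).red u) := by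
  have hu' : (u : LaurentSeries Kbar) ∈ gRing A := hu
  apply Subtype.ext
  rw [hred' _ (aux_mem_beta A M p hp hpM hA l u hu), coe_betaBar,
    Conc.coe_R1_red A M p hp hpM hA u hu', ← Conc.gRes_qExpand A l hu']
  exact congrArg (gRes A) (mk_gRing_congr A _ _ _ _ (coe_heckeBetaBar (M * p) l u))

end aux

include hl hlMp in
/-- **Reduction at `∞` commutes with `T_l`.** -/
theorem red_heckeNorm_TBar (u : FN (M * p)) (hu : u ∈ (Conc.R1 A M p hp hpM hA).O) :
    heckeNorm Kbar (M * p) l u ∈ (Conc.R1 A M p hp hpM hA).O ∧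
      (Conc.R1 A M p hp hpM hA).red (heckeNorm Kbar (M * p) l u) =
        TBar (IsLocalRing.ResidueField ↥A) M l ((Conc.R1 A M p hp hpM hA).red u) := by
  obtain ⟨R', hO', hred'⟩ := exists_R1 A (M * l) p hp (not_dvd_mul_l M p hp hpM l hl hlMp) hA
    (M * p * l) (by ring)
  letI := algebraAlong (heckeAlphaBar Kbar (M * p) l)
  haveI := isScalarTower_along (heckeAlphaBar Kbar (M * p) l)
  haveI : FiniteDimensional (FN (M * p)) (FN (M * p * l)) :=
    DegreeAlpha.finiteDimensional_alpha (M * p) l hl hlMp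
  letI := towerAlgebra (IsLocalRing.ResidueField ↥A) (dvd_mul_right M l)
  obtain ⟨-, -, h3, -, -⟩ := tower_spec (IsLocalRing.ResidueField ↥A) (dvd_mul_right M l)
    (natCast_Ml_ne_zero A M p hp hpM hA l hl hlMp)
  have key := red_norm_single (Conc.R1 A M p hp hpM hA) R'
    (aux_mem_alpha A M p hp hpM hA l R' hO')
    (aux_red_alpha A M p hp hpM hA l R' hred')
    ((finrank_tower_l A M p hp hpM hA l hl hlMp).trans
          (DegreeAlpha.finrank_alpha (M * p) l hl hlMp).symm)
    (heckeBetaBar Kbar (M * p) l u) ((hO' _).mpr (aux_mem_beta A M p hp hpM hA l u hu))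
  refine ⟨key.1, ?_⟩
  rw [TBar_apply, ← aux_red_beta A M p hp hpM hA l R' hred' u hu]
  exact key.2

end Fermat.Agent.MR.Eis
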