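import Fermat.Agent.MR.Eis.TBar
import Fermat.Agent.DR.Conc.RedData
import Fermat.Agent.S36.Norm.RedNorm

/-!
# MR/Eis (S44, block EIS): reduction at `∞` commutes with the multiplicative Hecke operators

`A` a place of `Kbar` over `p ∤ M`, `R1 = Conc.R1 A M p` the Gauss reduction of `FN (M p)` (expansion at `∞`), residue
field `E k M`.  For a prime `l ∤ M p`:

`red_heckeNorm : R1.red (heckeNorm Kbar (M * p) l u) = TBar k M l (R1.red u)` for `u ∈ R1.O`.

Proof: `S36.Norm.red_norm` (norm and reduction commute when the residue degree is the degree) for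
`FN (M p) ⊆ FN (M p l)`, residue fields `E k M ⊆ E k (M l)`, both of degree `l + 1`.
-/

set_option autoImplicit false
set_option linter.style.haveILetI false
set_option linter.unusedSectionVars false

noncomputable section

namespace Fermat.Agent.MR.Eis

open AlgebraicCurve ModularCurve Fermat.Agent.S24 Fermat.Agent.GAL Fermat.Agent.GAL.Hecke
  Fermat.Agent.GAL.Igusa Fermat.Agent.GAL.RED Fermat.Agent.GAL.Gauss Fermat.Agent.DR
  Fermat.Agent.DR.Abs

section Single

variable {K F k Fb : Type*} [Field K] [Field F] [Algebra K F] [Field k] [Field Fb] [Algebra k Fb]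

/-- A single reduction as a family. -/
def single (R : RedData K F k Fb) : MultiRed K F k (fun _ : Unit => Fb) where
  R := fun _ => R
  A := R.A
  redA := R.redA
  A_eq := fun _ => rfl
  redA_eq := fun _ _ => rfl
  redA_surj := fun c => by
    obtain ⟨⟨a, ha⟩, rfl⟩ := R.resA_surjective c
    exact ⟨a, ha, R.redA_of_mem ha⟩

theorem single_sep (R : RedData K F k Fb) : (single R).Sep := by
  intro u c hc
  obtain ⟨y, hy⟩ := R.res_surjective (u ())
  refine ⟨(c ())⁻¹ • (y : F), fun i => ?_⟩
  have h1 : c i • (c ())⁻¹ • (y : F) = y := by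
    rw [smul_smul, mul_inv_cancel₀ (hc ()), one_smul]
  rw [h1]
  refine ⟨y.2, ?_⟩
  show R.red (y : F) = u ()
  rw [R.red_of_mem y.2, ← hy]

/-- Norm and reduction commute when the residue degree is the degree. -/
theorem red_norm_single {F1 Fb1 : Type*} [Field F1] [Algebra K F1] [Algebra F1 F]
    [IsScalarTower K F1 F] [FiniteDimensional F1 F] [Field Fb1] [Algebra k Fb1] [Algebra Fb1 Fb]
    [Module.Finite Fb1 Fb] (R1 : RedData K F1 k Fb1) (R : RedData K F k Fb)
    (hmem : ∀ y : F1, y ∈ R1.O → algebraMap F1 F y ∈ R.O)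
    (hred : ∀ y : F1, y ∈ R1.O → R.red (algebraMap F1 F y) = algebraMap Fb1 Fb (R1.red y))
    (hdeg : Module.finrank Fb1 Fb = Module.finrank F1 F) (y : F) (hy : y ∈ R.O) :
    Algebra.norm F1 y ∈ R1.O ∧ R1.red (Algebra.norm F1 y) = Algebra.norm Fb1 (R.red y) := by
  letI : ∀ i : Unit, Algebra Fb1 ((fun _ : Unit => Fb) i) := fun _ => inferInstance
  have hov : S36.Norm.Over R1 (single R) :=
    { mem := fun _ y hy => hmem y hy
      red := fun _ y hy => hred y hy
      fin := fun _ => inferInstance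
      sum := by
        rw [Fintype.sum_unique]
        exact hdeg }
  have key := S36.Norm.red_norm hov (single_sep R) (fun _ => 1) (fun _ => one_ne_zero) y (by
      intro _
      rw [map_one, one_mul]
      exact hy)
  simp only [one_pow, Finset.prod_const_one, map_one, one_mul, Fintype.prod_unique] at key
  exact key

end Single

variable (A : ValuationSubring Kbar) (M p : ℕ) [NeZero M] [NeZero p] (hp : p.Prime)
  (hpM : ¬ p ∣ M) (hA : A.LiesOverPrime p)

include hp hpM hA in
/-- The Gauss reduction datum on `FN N`, `N = M p`. -/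
theorem exists_R1 (N : ℕ) (hN : N = M * p) :
    ∃ R : RedData Kbar (FN N) (IsLocalRing.ResidueField ↥A) (E (IsLocalRing.ResidueField ↥A) M),
      (∀ x : FN N, x ∈ R.O ↔ (x : LaurentSeries Kbar) ∈ gRing A) ∧
      ∀ (x : FN N) (hx : (x : LaurentSeries Kbar) ∈ gRing A),
        ((R.red x : E (IsLocalRing.ResidueField ↥A) M) :
          LaurentSeries (IsLocalRing.ResidueField ↥A)) = gRes A ⟨_, hx⟩ := by
  subst hN
  exact ⟨Conc.R1 A M p hp hpM hA, fun x => Iff.rfl, fun x hx => Conc.coe_R1_red A M p hp hpM hA x hx⟩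

variable (l : ℕ) [NeZero l] (hl : l.Prime) (hlMp : ¬ l ∣ M * p)

include hp hpM hl hlMp in
theorem not_dvd_mul_l : ¬ p ∣ M * l := by
  intro h
  rcases (Nat.Prime.dvd_mul hp).mp h with h | h
  · exact hpM h
  · rw [Nat.prime_dvd_prime_iff_eq hp hl] at h
    exact hlMp (h ▸ dvd_mul_left p M)

include hlMp in
theorem not_l_dvd_M : ¬ l ∣ M := fun h => hlMp (h.mul_right p)

include hp hpM hA hl hlMp in
theorem natCast_Ml_ne_zero : ((M * l : ℕ) : IsLocalRing.ResidueField ↥A) ≠ 0 :=
  Conc.natCast_M_ne_zero A (M * l) p hp (not_dvd_mul_l M p hp hpM l hl hlMp) hA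

include hp hpM hA hl hlMp in
/-- `[E k (M l) : E k M] = l + 1`. -/
theorem finrank_tower_l :
    @Module.finrank (E (IsLocalRing.ResidueField ↥A) M) (E (IsLocalRing.ResidueField ↥A) (M * l)) _ _
      (towerAlgebra (IsLocalRing.ResidueField ↥A) (dvd_mul_right M l)).toModule = l + 1 := by
  letI := towerAlgebra (IsLocalRing.ResidueField ↥A) (dvd_mul_right M l)
  obtain ⟨-, -, -, -, h5⟩ := tower_spec (IsLocalRing.ResidueField ↥A) (dvd_mul_right M l)
    (natCast_Ml_ne_zero A M p hp hpM hA l hl hlMp)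
  have h2 : dedekindPsi (M * l) = (l + 1) * dedekindPsi M := by
    rw [mul_comm M l, Fermat.Agent.Lib.Gamma0Count.dedekindPsi_prime_mul_of_not_dvd hl (NeZero.ne M)
      (not_l_dvd_M M p l hlMp)]
  rw [h2] at h5
  exact Nat.eq_of_mul_eq_mul_right (DegreeAlpha.dedekindPsi_pos M) h5

end Fermat.Agent.MR.Eis
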