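import Fermat.Agent.MR.Eis.Abs
import Fermat.Agent.GAL.Igusa.Tower
import Fermat.Agent.GAL.Hecke.Degree
import Fermat.Agent.S36R.Unit.IntCrit

/-!
# MR/Eis (S44, block EIS): the multiplicative Hecke operator `T̄_l` on `E k M` (any characteristic prime to `M l`)

* `betaBar k M l : E k M →ₐ[k] E k (M * l)`, `f(t) ↦ f(t^l)`;
* `TBar k M l : E k M →* E k M`, `Norm_{E k (M l) / E k M} ∘ betaBar`;
* `nonCusp k M` : the places of `E k M` where `j` is regular;
* `TBar_preserves` : `TBar` preserves the functions all of whose orders on `nonCusp` are divisible by `m`.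
-/

set_option autoImplicit false
set_option linter.style.haveILetI false

noncomputable section

namespace Fermat.Agent.MR.Eis

open AlgebraicCurve ModularCurve Fermat.Agent.GAL Fermat.Agent.GAL.Hecke Fermat.Agent.GAL.Igusa
  IntermediateField

variable (k : Type) [Field k] (M l : ℕ) [NeZero M] [NeZero l]

/-- `f(t) ↦ f(t^l)`. -/
def betaBar : E k M →ₐ[k] E k (M * l) :=
  ((qExpandAlgHomC k l).comp (modularFunctionFieldFullC k M).val).codRestrict
    (modularFunctionFieldFullC k (M * l)).toSubalgebra
    (fun x => full_degeneracyC_map_le k M l ⟨x, x.2, rfl⟩)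

theorem coe_betaBar (x : E k M) :
    ((betaBar k M l x : E k (M * l)) : LaurentSeries k) = qExpand k l (x : LaurentSeries k) := rfl

/-- The multiplicative Hecke operator. -/
def TBar : E k M →* E k M :=
  letI := towerAlgebra k (dvd_mul_right M l)
  (Algebra.norm (E k M)).comp ((betaBar k M l : E k M →+* E k (M * l)) : E k M →* E k (M * l))

theorem TBar_apply (x : E k M) :
    TBar k M l x = @Algebra.norm (E k M) (E k (M * l)) _ _ (towerAlgebra k (dvd_mul_right M l))
      (betaBar k M l x) := rfl

/-- The places where `j` is regular. -/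
def nonCusp : Set (Place k (E k M)) := {P | 0 ≤ P.ord (jb k M)}

theorem mem_nonCusp (P : Place k (E k M)) : P ∈ nonCusp k M ↔ 0 ≤ P.ord (jb k M) := Iff.rfl

theorem finiteAlong_betaBar (hMl : ((M * l : ℕ) : k) ≠ 0) : FiniteAlong k (betaBar k M l) := by
  have htr : Transcendental k (betaBar k M l (jb k M)) := by
    intro h
    exact transcendental_jb k M
      ((isAlgebraic_algHom_iff (betaBar k M l) (betaBar k M l).injective).mp h)
  haveI := finiteDimensional_jb k (M * l) hMl
  haveI : FiniteDimensional k⟮betaBar k M l (jb k M)⟯ (E k (M * l)) :=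
    Fermat.Agent.S24.finiteDimensional_adjoin_of_transcendental (jb k (M * l)) _ htr
  exact finiteAlong_of_finiteDimensional (betaBar k M l) (jb k M)

theorem integral_betaBar (hMl : ((M * l : ℕ) : k) ≠ 0) : (betaBar k M l).toRingHom.IsIntegral :=
  RingHom.IsIntegral.of_finite (finiteAlong_betaBar k M l hMl)

/-- `j(t^l)` is integral over `k[j]`. -/
theorem isIntegral_betaBar_jb (hMl : ((M * l : ℕ) : k) ≠ 0) :
    IsIntegral (Algebra.adjoin k {jb k (M * l)}) (betaBar k M l (jb k M)) := by
  rw [← Fermat.Agent.S36R.Unit.isIntegral_coe_iff]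
  have h := S28.isIntegral_jd k (M * l) (S28.statementB S28.statementA) hMl (dvd_mul_left l M)
  rw [S28.jd_eq] at h
  exact h

theorem jb_ne_zero : jb k M ≠ 0 := fun h0 => transcendental_jb k M (h0 ▸ isAlgebraic_zero)

/-- the Hecke correspondence preserves the non cuspidal places. -/
theorem restrictAlong_mem_nonCusp (hMl : ((M * l : ℕ) : k) ≠ 0) (Q : Place k (E k (M * l)))
    (hQ : 0 ≤ Q.ord (jb k (M * l))) :
    Q.restrictAlong (betaBar k M l) (integral_betaBar k M l hMl) ∈ nonCusp k M := by
  rw [mem_nonCusp]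
  have h1 : jb k (M * l) ∈ Q.toValuationSubring :=
    Fermat.Agent.S24.mem_of_ord_nonneg Q (jb_ne_zero k (M * l)) hQ
  have h2 := mem_place_of_isIntegral Q h1 (isIntegral_betaBar_jb k M l hMl)
  have h3 := Fermat.Agent.S24.ord_nonneg_of_mem Q h2
  rw [Q.ord_restrictAlong (betaBar k M l) (integral_betaBar k M l hMl)] at h3
  by_contra hneg
  push_neg at hneg
  have h4 : 0 < Place.ramificationIndexAlong (betaBar k M l) Q := by
    letI := algebraAlong (betaBar k M l)
    haveI := isScalarTower_along (betaBar k M l)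
    haveI := isIntegral_along (betaBar k M l) (integral_betaBar k M l hMl)
    exact Q.ramificationIndex_pos (F := E k M)
  have h5 : (0 : ℤ) < Place.ramificationIndexAlong (betaBar k M l) Q := by exact_mod_cast h4
  nlinarith

/-- **`T̄_l` preserves the functions whose orders at the non cuspidal places are divisible by `m`.** -/
theorem TBar_preserves (hMl : ((M * l : ℕ) : k) ≠ 0) {m : ℕ} {y : E k M} (hy0 : y ≠ 0)
    (hy : ∀ P ∈ nonCusp k M, (m : ℤ) ∣ P.ord y) :
    ∀ P ∈ nonCusp k M, (m : ℤ) ∣ P.ord (TBar k M l y) := by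
  letI := towerAlgebra k (dvd_mul_right M l)
  obtain ⟨h1, h2, h3, h4, -⟩ := tower_spec k (dvd_mul_right M l) hMl
  refine dvd_ord_norm_map (betaBar k M l) (integral_betaBar k M l hMl) (nonCusp k M) ?_ hy0 hy
  intro Q hQ
  refine restrictAlong_mem_nonCusp k M l hMl Q ?_
  rw [mem_nonCusp] at hQ
  rw [← h2, Q.ord_restrict]
  exact mul_nonneg (Int.natCast_nonneg _) hQ

end Fermat.Agent.MR.Eis
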